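/-
S35-GEO, leaf (L6b), block (B45) (helper95): the two `BranchNormal` fields of `H27.Crossing` on
the concrete model `S34.H30.stdV`, finite chart `C₁ = chart A₀ (α x₀)`.

* `branchNormal₁_stdV` : `BranchNormal C₁ V₁ m x` at every prime `x ⊇ C₁ ∩ m(V₁)`;
* `branchNormal₂_stdV` : `BranchNormal C₁ V₂ m x` at every prime `x ⊇ C₁ ∩ m(V₂)`, given
  `β x₀ ∈ C₁` (hypothesis `hβj`, the same as in helper28's `crossN3_stdV`);
* `branchNormal_stdV_of_both` : both, at a point on both components.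

Proof: helper97's `H97.branchNormal_of_chart_hom` with `φ = α`, resp. `φ = β`, on the `K₀`-forms
(helper61's `Concrete3` vocabulary; the `β`-side by transport of the `α`-side along `w`).
-/
import Fermat.Agent.S35.H97.ChartBranch
import Fermat.Agent.S34.H61.Concrete3
import Fermat.Agent.S34.H59.FDeg
import Fermat.Agent.S34.H30.ChartClose

set_option autoImplicit false
set_option linter.style.haveILetI false
set_option linter.unusedSectionVars false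
set_option linter.unusedVariables false

open AlgebraicCurve ModularCurve

noncomputable section

namespace Fermat.Agent.S35.H95

open Fermat.Agent.S34.H27 Fermat.Agent.S34.H30 Fermat.Agent.S34.H10
  Fermat.Agent.S18 Fermat.Agent.S18.H74 Fermat.Agent.S18.H19 Fermat.Agent.S34.H19
  Fermat.Agent.S34.H61 Fermat.Agent.S34.H64 Fermat.Agent.S35.H27

section Std

variable (M q : ℕ) [NeZero M] [hqF : Fact q.Prime] (hqM : ¬ q ∣ M)
  (A : ValuationSubring Kb) (hA : A.LiesOverPrime q) (hAtop : A ≠ ⊤)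
  (O₁ : ValuationSubring (FN (M * q))) (w : FN (M * q) ≃+* FN (M * q))

/-- Residue degree one of the second Gauss ring along `β` (transport of `TwoExt.res₁` along
`w`). -/
theorem res_beta_ratForm (hTG : TwoGauss M q hqM A hA O₁ w) (K₀ : IntermediateField ℚ Kb)
    (hres₁ : haveI : NeZero q := ⟨hqF.out.ne_zero⟩
      ∀ g ∈ Fermat.Agent.S34.H61.gaussOne M q O₁ K₀,
        ∃ v ∈ Fermat.Agent.S34.H61.gaussForm M hqM A hA K₀,
          g - Fermat.Agent.S34.H61.alphaForm M q K₀ v ∈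
            (Fermat.Agent.S34.H61.gaussOne M q O₁ K₀).nonunits) :
    haveI : NeZero q := ⟨hqF.out.ne_zero⟩
    ∀ g ∈ Fermat.Agent.S34.H61.gaussTwoForm M q O₁ w K₀,
      ∃ v ∈ Fermat.Agent.S34.H61.gaussForm M hqM A hA K₀,
        g - Fermat.Agent.S34.H61.betaForm M q K₀ v ∈
          (Fermat.Agent.S34.H61.gaussTwoForm M q O₁ w K₀).nonunits := by
  haveI : NeZero q := ⟨hqF.out.ne_zero⟩
  intro g hg
  have hwg : Fermat.Agent.S34.H61.wForm hTG K₀ g ∈ Fermat.Agent.S34.H61.gaussOne M q O₁ K₀ :=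
    (Fermat.Agent.S34.H61.mem_comap_gaussTwo_iff hTG K₀ g).1 hg
  obtain ⟨v, hv, hgv⟩ := hres₁ _ hwg
  refine ⟨v, hv, ?_⟩
  -- membership in the maximal ideal transports along `w`
  have hiff : ∀ y : ↥(ratForm (M * q) K₀),
      y ∈ (Fermat.Agent.S34.H61.gaussTwoForm M q O₁ w K₀).nonunits ↔
        Fermat.Agent.S34.H61.wForm hTG K₀ y ∈
          (Fermat.Agent.S34.H61.gaussOne M q O₁ K₀).nonunits := fun y =>
    (mem_nonunits_iff_of_mem_iff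
      ((Fermat.Agent.S34.H61.wForm hTG K₀ : ↥(ratForm (M * q) K₀) ≃+* ↥(ratForm (M * q) K₀)) :
        ↥(ratForm (M * q) K₀) →+* ↥(ratForm (M * q) K₀))
      (Fermat.Agent.S34.H61.gaussTwoForm M q O₁ w K₀) (Fermat.Agent.S34.H61.gaussOne M q O₁ K₀)
      (fun z => (Fermat.Agent.S34.H61.mem_comap_gaussTwo_iff hTG K₀ z).symm) y).symm
  rw [hiff, map_sub, Fermat.Agent.S34.H61.wForm_betaForm]
  exact hgv

/-- **`BranchNormal` along the first component** at every prime `x ⊇ C₁ ∩ m(V₁)` of the finite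
chart of the concrete model. -/
theorem branchNormal₁_stdV (hTG : TwoGauss M q hqM A hA O₁ w) (x₀ : FN M)
    (hx₀ : IsBase M q hqM A hA x₀)
    (K₀ : IntermediateField ℚ Kb) [FiniteDimensional ℚ K₀] [Normal ℚ K₀]
    (ϖ : ↥(A.comap (algebraMap K₀ Kb))) (hϖ : Irreducible ϖ)
    (j : ↥(ratForm (M * q) K₀)) (hj : (j : FN (M * q)) = heckeAlphaBar Kb M q x₀)
    (τ : Kb ≃ₐ[ℚ] Kb)
    (x : Ideal ↥(stdV M q A hAtop O₁ w K₀ ϖ j τ).C₁) [hx : x.IsPrime]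
    (h₁ : ∀ c : ↥(stdV M q A hAtop O₁ w K₀ ϖ j τ).C₁,
      (c : (stdV M q A hAtop O₁ w K₀ ϖ j τ).F₀) ∈
        (stdV M q A hAtop O₁ w K₀ ϖ j τ).V₁.nonunits → c ∈ x)
    (m : ℕ) (hm : 0 < m) :
    BranchNormal (stdV M q A hAtop O₁ w K₀ ϖ j τ).C₁ (stdV M q A hAtop O₁ w K₀ ϖ j τ).V₁ m x := by
  have hqp : q.Prime := hqF.out
  haveI : NeZero q := ⟨hqp.ne_zero⟩
  letI algM := algComap (A.comap (algebraMap K₀ Kb)) (ratForm M K₀)
  letI algK := algComap (A.comap (algebraMap K₀ Kb)) (ratForm (M * q) K₀)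
  haveI hdvr : IsDiscreteValuationRing ↥(A.comap (algebraMap K₀ Kb)) :=
    Fermat.Agent.S34.H78.isDVR_comap hAtop K₀
  haveI : FaithfulSMul ↥(A.comap (algebraMap K₀ Kb)) ↥(ratForm M K₀) :=
    Fermat.Agent.S34.H78.faithfulSMul_comap A K₀ (ratForm M K₀)
  have hxK : x₀ ∈ ratForm M K₀ := Fermat.Agent.S34.H61.mem_ratForm_of_mem_range M K₀ hx₀.1
  obtain ⟨hS, hS'⟩ := hx₀.2 K₀ hxK
  have hdeg := Fermat.Agent.S34.H59.finrank_alphaForm M q K₀ hqp hqM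
  have hgood := Fermat.Agent.S34.H61.vGood_ratForm_of_finrank hTG K₀ ϖ hϖ
    (⟨x₀, hxK⟩ : ↥(ratForm M K₀)) hS hS' hdeg
  have hdvrO : IsDiscreteValuationRing ↥(Fermat.Agent.S34.H61.gaussForm M hqM A hA K₀) :=
    Fermat.Agent.S34.H10.isDiscreteValuationRing_of_dsetup hϖ hS
  letI algα : Algebra ↥(ratForm M K₀) ↥(ratForm (M * q) K₀) :=
    Fermat.Agent.S34.H61.algAlpha M q K₀
  have hT := Fermat.Agent.S34.H61.twoExt_ratForm hTG K₀ hdvrO hdeg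
  obtain rfl : j = Fermat.Agent.S34.H61.alphaForm M q K₀ (⟨x₀, hxK⟩ : ↥(ratForm M K₀)) :=
    Subtype.ext hj
  have hCG := Fermat.Agent.S34.H44.ratForm_chartsGood_of_mem (M * q) A K₀ hAtop
    (Fermat.Agent.S34.H61.alphaForm M q K₀ (⟨x₀, hxK⟩ : ↥(ratForm M K₀)))
    hx₀.alpha_rat hx₀.alpha_transcendental
  haveI := hCG.icl₁
  exact Fermat.Agent.S35.H97.branchNormal_of_chart_hom ϖ hϖ
    (Fermat.Agent.S34.H61.gaussForm M hqM A hA K₀) (⟨x₀, hxK⟩ : ↥(ratForm M K₀)) hS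
    (Fermat.Agent.S34.H61.alphaForm M q K₀) (fun a => rfl)
    (chart ↥(A.comap (algebraMap K₀ Kb))
      (Fermat.Agent.S34.H61.alphaForm M q K₀ (⟨x₀, hxK⟩ : ↥(ratForm M K₀))))
    hCG.frac₁ (Fermat.Agent.S34.H61.gaussOne M q O₁ K₀) hgood.le₁₁
    (fun v => Fermat.Agent.S34.H61.alphaForm_mem_comap_iff hTG K₀ v) hT.res₁ x h₁
    (Fermat.Agent.S34.H42.inLoc_of_mem _ x (self_mem_chart _ _)) m hm

/-- **`BranchNormal` along the second component** at every prime `x ⊇ C₁ ∩ m(V₂)` of the finite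
chart of the concrete model, given `β x₀ ∈ C₁`. -/
theorem branchNormal₂_stdV (hTG : TwoGauss M q hqM A hA O₁ w) (x₀ : FN M)
    (hx₀ : IsBase M q hqM A hA x₀)
    (K₀ : IntermediateField ℚ Kb) [FiniteDimensional ℚ K₀] [Normal ℚ K₀]
    (ϖ : ↥(A.comap (algebraMap K₀ Kb))) (hϖ : Irreducible ϖ)
    (j : ↥(ratForm (M * q) K₀)) (hj : (j : FN (M * q)) = heckeAlphaBar Kb M q x₀)
    (τ : Kb ≃ₐ[ℚ] Kb)
    (hβj : ∀ j₂ : ↥(ratForm (M * q) K₀), (j₂ : FN (M * q)) = heckeBetaBar Kb M q x₀ →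
      j₂ ∈ (stdV M q A hAtop O₁ w K₀ ϖ j τ).C₁)
    (x : Ideal ↥(stdV M q A hAtop O₁ w K₀ ϖ j τ).C₁) [hx : x.IsPrime]
    (h₂ : ∀ c : ↥(stdV M q A hAtop O₁ w K₀ ϖ j τ).C₁,
      (c : (stdV M q A hAtop O₁ w K₀ ϖ j τ).F₀) ∈
        (stdV M q A hAtop O₁ w K₀ ϖ j τ).V₂.nonunits → c ∈ x)
    (m : ℕ) (hm : 0 < m) :
    BranchNormal (stdV M q A hAtop O₁ w K₀ ϖ j τ).C₁ (stdV M q A hAtop O₁ w K₀ ϖ j τ).V₂ m x := by
  have hqp : q.Prime := hqF.out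
  haveI : NeZero q := ⟨hqp.ne_zero⟩
  letI algM := algComap (A.comap (algebraMap K₀ Kb)) (ratForm M K₀)
  letI algK := algComap (A.comap (algebraMap K₀ Kb)) (ratForm (M * q) K₀)
  haveI hdvr : IsDiscreteValuationRing ↥(A.comap (algebraMap K₀ Kb)) :=
    Fermat.Agent.S34.H78.isDVR_comap hAtop K₀
  haveI : FaithfulSMul ↥(A.comap (algebraMap K₀ Kb)) ↥(ratForm M K₀) :=
    Fermat.Agent.S34.H78.faithfulSMul_comap A K₀ (ratForm M K₀)
  have hxK : x₀ ∈ ratForm M K₀ := Fermat.Agent.S34.H61.mem_ratForm_of_mem_range M K₀ hx₀.1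
  obtain ⟨hS, hS'⟩ := hx₀.2 K₀ hxK
  have hdeg := Fermat.Agent.S34.H59.finrank_alphaForm M q K₀ hqp hqM
  have hgood := Fermat.Agent.S34.H61.vGood_ratForm_of_finrank hTG K₀ ϖ hϖ
    (⟨x₀, hxK⟩ : ↥(ratForm M K₀)) hS hS' hdeg
  have hdvrO : IsDiscreteValuationRing ↥(Fermat.Agent.S34.H61.gaussForm M hqM A hA K₀) :=
    Fermat.Agent.S34.H10.isDiscreteValuationRing_of_dsetup hϖ hS
  letI algα : Algebra ↥(ratForm M K₀) ↥(ratForm (M * q) K₀) :=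
    Fermat.Agent.S34.H61.algAlpha M q K₀
  have hT := Fermat.Agent.S34.H61.twoExt_ratForm hTG K₀ hdvrO hdeg
  obtain rfl : j = Fermat.Agent.S34.H61.alphaForm M q K₀ (⟨x₀, hxK⟩ : ↥(ratForm M K₀)) :=
    Subtype.ext hj
  have hCG := Fermat.Agent.S34.H44.ratForm_chartsGood_of_mem (M * q) A K₀ hAtop
    (Fermat.Agent.S34.H61.alphaForm M q K₀ (⟨x₀, hxK⟩ : ↥(ratForm M K₀)))
    hx₀.alpha_rat hx₀.alpha_transcendental
  haveI := hCG.icl₁
  have hβmem : Fermat.Agent.S34.H61.betaForm M q K₀ (⟨x₀, hxK⟩ : ↥(ratForm M K₀)) ∈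
      chart ↥(A.comap (algebraMap K₀ Kb))
        (Fermat.Agent.S34.H61.alphaForm M q K₀ (⟨x₀, hxK⟩ : ↥(ratForm M K₀))) :=
    hβj _ rfl
  have hβV : ∀ v : ↥(ratForm M K₀),
      Fermat.Agent.S34.H61.betaForm M q K₀ v ∈ Fermat.Agent.S34.H61.gaussTwoForm M q O₁ w K₀ ↔
        v ∈ Fermat.Agent.S34.H61.gaussForm M hqM A hA K₀ := fun v => hTG.beta_mem_iff₂ (v : FN M)
  exact Fermat.Agent.S35.H97.branchNormal_of_chart_hom ϖ hϖ
    (Fermat.Agent.S34.H61.gaussForm M hqM A hA K₀) (⟨x₀, hxK⟩ : ↥(ratForm M K₀)) hS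
    (Fermat.Agent.S34.H61.betaForm M q K₀)
    (fun a => Fermat.Agent.S34.H61.betaForm_algebraMap M q K₀ (a : K₀))
    (chart ↥(A.comap (algebraMap K₀ Kb))
      (Fermat.Agent.S34.H61.alphaForm M q K₀ (⟨x₀, hxK⟩ : ↥(ratForm M K₀))))
    hCG.frac₁ (Fermat.Agent.S34.H61.gaussTwoForm M q O₁ w K₀) hgood.le₁₂
    hβV (res_beta_ratForm M q hqM A hA O₁ w hTG K₀ hT.res₁) x h₂
    (Fermat.Agent.S34.H42.inLoc_of_mem _ x hβmem) m hm

/-- **(B45)**: both `BranchNormal` fields of `H27.Crossing` at a point of the finite chart of the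
concrete model lying on both components. -/
theorem branchNormal_stdV_of_both (hTG : TwoGauss M q hqM A hA O₁ w) (x₀ : FN M)
    (hx₀ : IsBase M q hqM A hA x₀)
    (K₀ : IntermediateField ℚ Kb) [FiniteDimensional ℚ K₀] [Normal ℚ K₀]
    (ϖ : ↥(A.comap (algebraMap K₀ Kb))) (hϖ : Irreducible ϖ)
    (j : ↥(ratForm (M * q) K₀)) (hj : (j : FN (M * q)) = heckeAlphaBar Kb M q x₀)
    (τ : Kb ≃ₐ[ℚ] Kb)
    (hβj : ∀ j₂ : ↥(ratForm (M * q) K₀), (j₂ : FN (M * q)) = heckeBetaBar Kb M q x₀ →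
      j₂ ∈ (stdV M q A hAtop O₁ w K₀ ϖ j τ).C₁)
    (x : Ideal ↥(stdV M q A hAtop O₁ w K₀ ϖ j τ).C₁) [hx : x.IsPrime]
    (hboth : Both (stdV M q A hAtop O₁ w K₀ ϖ j τ).V₁ (stdV M q A hAtop O₁ w K₀ ϖ j τ).V₂
      (stdV M q A hAtop O₁ w K₀ ϖ j τ).C₁ x)
    (m : ℕ) (hm : 0 < m) :
    BranchNormal (stdV M q A hAtop O₁ w K₀ ϖ j τ).C₁ (stdV M q A hAtop O₁ w K₀ ϖ j τ).V₁ m x ∧
      BranchNormal (stdV M q A hAtop O₁ w K₀ ϖ j τ).C₁ (stdV M q A hAtop O₁ w K₀ ϖ j τ).V₂ m x :=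
  ⟨branchNormal₁_stdV M q hqM A hA hAtop O₁ w hTG x₀ hx₀ K₀ ϖ hϖ j hj τ x hboth.1 m hm,
    branchNormal₂_stdV M q hqM A hA hAtop O₁ w hTG x₀ hx₀ K₀ ϖ hϖ j hj τ hβj x hboth.2 m hm⟩

end Std

end Fermat.Agent.S35.H95
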