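/-
S35 (helper95), FINAL GLUE between the algebra side and the geometry side:

* `bop_bop_sub` : `(σ + q σ⁻¹)² - (q + 1)² = σ⁻² (σ² - 1)(σ² - q²)` as operators on `J₀(M)`
  (`H90.Bop` versus `H27.frobPoly`);
* `key_of_newProj_b2new` : at level `N * q`, an element `r` of the Hecke pair ring with
  `χ r.2 ≠ 0` whose first component maps the `p`-power torsion into the common kernel of the two
  degeneracy push-forwards (NEWPROJ), together with `H27.B2newStatement N q p` (B2new), gives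
  `H90.KeyStatement p (N * q) S χ q`;
* `exists_eq_mul_of_dvd_of_not_sq_dvd` : `q ∥ M` gives `M = N * q` with `q ∤ N`.
-/
import Fermat.Agent.S35.H90.Top
import Fermat.Agent.S35.H27.B2Defs

set_option autoImplicit false

open CuspForm ModularCurve AlgebraicCurve

namespace Fermat.Agent.S35.H95

open Fermat.Agent.S30.H86 (Rr)
open Fermat.Agent.S35.H90 (Bop TJ TH KeyStatement)
open Fermat.Agent.S35.H27 (frobPoly B2newStatement)
open Fermat.Agent.S35.H60 (degAlpha degBeta)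

local notation "Γ" => (AlgebraicClosure ℚ ≃ₐ[ℚ] AlgebraicClosure ℚ)

/-- `(σ + d σ⁻¹)² - (d + 1)² = σ⁻² (σ⁴ - (d² + 1) σ² + d²)`, abstractly. -/
theorem bop_bop_sub_abs {G : Type*} [Group G] {J : Type*} [AddCommGroup J] [DistribMulAction G J]
    (σ : G) (q : ℕ) (y : J) :
    Bop σ ((q : ℕ) : ℤ) (Bop σ ((q : ℕ) : ℤ) y) - ((((q : ℕ) : ℤ) + 1) ^ 2) • y
      = σ⁻¹ • σ⁻¹ • (σ • σ • σ • σ • y - (q ^ 2 + 1) • σ • σ • y + q ^ 2 • y) := by
  have h1 : ∀ (d : ℤ) (g : G) (x : J), g • (d • x) = d • (g • x) := fun d g x => smul_comm g d x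
  have h2 : ∀ (d : ℕ) (g : G) (x : J), g • (d • x) = d • (g • x) := fun d g x => smul_comm g d x
  unfold Bop
  simp only [smul_add, smul_sub, h1, h2, smul_inv_smul, inv_smul_smul]
  generalize σ • σ • y = a
  generalize σ⁻¹ • σ⁻¹ • y = b
  module

/-- `(σ + q σ⁻¹)² - (q + 1)² = σ⁻² (σ² - 1)(σ² - q²)` on `J₀(M)`. -/
theorem bop_bop_sub (M : ℕ) [NeZero M] (q : ℕ) (σ : Γ) (y : JZero M) :
    Bop σ ((q : ℕ) : ℤ) (Bop σ ((q : ℕ) : ℤ) y) - ((((q : ℕ) : ℤ) + 1) ^ 2) • y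
      = σ⁻¹ • σ⁻¹ • frobPoly M q σ y :=
  bop_bop_sub_abs σ q y

/-- `σ⁴ - (q² + 1) σ² + q²` commutes with multiplication by a natural number, abstractly. -/
theorem frobPoly_nsmul_abs {G : Type*} [Group G] {J : Type*} [AddCommGroup J]
    [DistribMulAction G J] (σ : G) (q k : ℕ) (y : J) :
    σ • σ • σ • σ • (k • y) - (q ^ 2 + 1) • σ • σ • (k • y) + q ^ 2 • (k • y)
      = k • (σ • σ • σ • σ • y - (q ^ 2 + 1) • σ • σ • y + q ^ 2 • y) := by
  have h2 : ∀ (d : ℕ) (g : G) (x : J), g • (d • x) = d • (g • x) := fun d g x => smul_comm g d x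
  simp only [h2]
  generalize σ • σ • σ • σ • y = a
  generalize σ • σ • y = b
  module

/-- `frobPoly` commutes with multiplication by a natural number. -/
theorem frobPoly_nsmul (M : ℕ) [NeZero M] (q : ℕ) (σ : Γ) (k : ℕ) (y : JZero M) :
    frobPoly M q σ (k • y) = k • frobPoly M q σ y :=
  frobPoly_nsmul_abs σ q k y

/-- **KeyStatement from (NEWPROJ) and (B2new)** at level `N * q`; (NEWPROJ) in the form with a
bounded exponent inside (helper75's shape). -/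
theorem key_of_newProj_b2new (p N q : ℕ) [NeZero N] [NeZero q] (S : Finset ℕ)
    {R : Type} [CommRing R]
    (χ : CuspForm.heckeAlgebra (N * q) 2 (↑S : Set ℕ) →+* R)
    (hNP : ∃ r ∈ Rr (TJ (N * q) S) (TH (N * q) S), χ r.2 ≠ 0 ∧ ∃ a : ℕ,
      ∀ (n : ℕ) (x : JZero (N * q)), p ^ n • x = 0 →
        degAlpha N q (p ^ a • r.1 x) = 0 ∧ degBeta N q (p ^ a • r.1 x) = 0)
    (hB2 : B2newStatement N q p) :
    KeyStatement p (N * q) S χ q := by
  obtain ⟨r, hr, hχ, a', hnew⟩ := hNP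
  obtain ⟨a, ha⟩ := hB2
  refine ⟨r, hr, a + a', hχ, fun A hA σ hσ n x hx => ?_⟩
  have hy : p ^ n • (p ^ a' • r.1 x) = 0 := by
    rw [smul_comm (p ^ n) (p ^ a'), ← map_nsmul, hx, map_zero, smul_zero]
  obtain ⟨hα, hβ⟩ := hnew n x hx
  have h := ha n A hA σ hσ (p ^ a' • r.1 x) hy hα hβ
  rw [frobPoly_nsmul] at h
  rw [bop_bop_sub (N * q) q σ (r.1 x), smul_comm (p ^ (a + a')) σ⁻¹,
    smul_comm (p ^ (a + a')) σ⁻¹, pow_add, mul_smul, h]
  exact (smul_zero (A := JZero (N * q)) σ⁻¹).symm ▸ (smul_zero (A := JZero (N * q)) σ⁻¹)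

/-- **KeyStatement from (NEWPROJ) and (B2new)** at level `N * q`; (NEWPROJ) in the exact form. -/
theorem key_of_newProj_b2new' (p N q : ℕ) [NeZero N] [NeZero q] (S : Finset ℕ)
    {R : Type} [CommRing R]
    (χ : CuspForm.heckeAlgebra (N * q) 2 (↑S : Set ℕ) →+* R)
    (hNP : ∃ r ∈ Rr (TJ (N * q) S) (TH (N * q) S), χ r.2 ≠ 0 ∧
      ∀ (n : ℕ) (x : JZero (N * q)), p ^ n • x = 0 →
        degAlpha N q (r.1 x) = 0 ∧ degBeta N q (r.1 x) = 0)
    (hB2 : B2newStatement N q p) :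
    KeyStatement p (N * q) S χ q := by
  obtain ⟨r, hr, hχ, hnew⟩ := hNP
  refine key_of_newProj_b2new p N q S χ ⟨r, hr, hχ, 0, fun n x hx => ?_⟩ hB2
  rw [pow_zero, one_smul]
  exact hnew n x hx

/-- `q ∥ M` gives `M = N * q` with `q ∤ N`. -/
theorem exists_eq_mul_of_dvd_of_not_sq_dvd {M q : ℕ} (hM : M ≠ 0) (hqM : q ∣ M)
    (hq2 : ¬ q ^ 2 ∣ M) : ∃ N : ℕ, N ≠ 0 ∧ ¬ q ∣ N ∧ M = N * q := by
  obtain ⟨N, rfl⟩ := hqM
  refine ⟨N, fun h => hM (by rw [h, mul_zero]), fun ⟨k, hk⟩ => hq2 ⟨k, by rw [hk]; ring⟩,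
    mul_comm q N⟩

end Fermat.Agent.S35.H95
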