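/-
S35 (helper95), ASSEMBLY: the frozen S35 from the two remaining families

* `NewProjFamily` — (NEWPROJ): for a newform `g` of level `N * q` (`q` prime, `q ∤ N`) with
  eigencharacter `chig` there is an element `r` of the Hecke pair ring with `chig r.2 ≠ 0` whose
  first component maps `J₀(N q)[lam^n]` into the `q`-new part, up to a bounded power of `lam`;
* `B2newFamily` — (B2new): `H27.B2newStatement N q p` for all `q ∤ N`, `p ≠ q`.

`key_of_families` : the hypothesis `hKey` of `H90.s35_of_key'`;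
`s35_of_newProj_b2new` : the conclusion of the frozen S35, in its binder shape.
-/
import Fermat.Agent.S35.H95.KeyGlue
import Fermat.Agent.S35.H96.IotaInjHecke

set_option autoImplicit false
open Polynomial
open CuspForm ModularCurve AlgebraicCurve CongruenceSubgroup

namespace Fermat.Agent.S35.H95

open Fermat.Agent.S30.H86 (Rr)
open Fermat.Agent.S35.H90 (TJ TH KeyStatement)
open Fermat.Agent.S35.H27 (B2newStatement)
open Fermat.Agent.S35.H60 (degAlpha degBeta)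

/-- **(NEWPROJ)**, as a family over all levels `N * q`. -/
def NewProjFamily : Prop :=
  ∀ (N q : ℕ) [NeZero N] [NeZero q], q.Prime → ¬ q ∣ N →
    ∀ {g : CuspForm (Gamma0 (N * q)) 2}, g.IsNewform →
    ∀ (S : Finset ℕ), (∀ ℓ : ℕ, ℓ.Prime → ℓ ∣ N * q → ℓ ∈ S) →
    ∀ (chig : CuspForm.heckeAlgebra (N * q) 2 (↑S : Set ℕ) →+* ℂ),
      (∀ (ℓ : ℕ) (hℓ : ℓ.Prime) (hℓM : ¬ ℓ ∣ N * q) (hℓS : ℓ ∉ (↑S : Set ℕ)),
        chig (CuspForm.heckeAlgebra.T hℓ hℓM hℓS) = ModularFormClass.qCoeff g ℓ) →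
    ∀ (lam : ℕ), lam.Prime →
      ∃ r ∈ Rr (TJ (N * q) S) (TH (N * q) S), chig r.2 ≠ 0 ∧ ∃ a : ℕ,
        ∀ (n : ℕ) (x : JZero (N * q)), lam ^ n • x = 0 →
          degAlpha N q (lam ^ a • r.1 x) = 0 ∧ degBeta N q (lam ^ a • r.1 x) = 0

/-- **(B2new)**, as a family over all levels `N * q` and all primes `p ≠ q`. -/
def B2newFamily : Prop :=
  ∀ (N q p : ℕ) [NeZero N] [NeZero q], q.Prime → p.Prime → p ≠ q → ¬ q ∣ N →
    B2newStatement N q p

/-- The key statements of `H90.s35_of_key'` from (NEWPROJ) and (B2new). -/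
theorem key_of_families (hNP : NewProjFamily) (hB2 : B2newFamily)
    {M : ℕ} [NeZero M] {g : CuspForm (CongruenceSubgroup.Gamma0 M) 2} (hg : g.IsNewform)
    (lam : ℕ) [Fact lam.Prime]
    (S : Finset ℕ)
    (O' : Type) [CommRing O'] [CharZero O']
    (chig : CuspForm.heckeAlgebra M 2 (↑S : Set ℕ) →+* ℂ)
    (hchig : ∀ (ℓ : ℕ) (hℓ : ℓ.Prime) (hℓM : ¬ ℓ ∣ M) (hℓS : ℓ ∉ (↑S : Set ℕ)),
      chig (CuspForm.heckeAlgebra.T hℓ hℓM hℓS) = ModularFormClass.qCoeff g ℓ)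
    (iota : chig.range →+* O')
    (hMS : ∀ q : ℕ, q.Prime → q ∣ M → q ∈ S) :
    ∀ q : ℕ, q.Prime → q ≠ lam → q ∣ M → ¬ q ^ 2 ∣ M →
      KeyStatement lam M S (iota.comp chig.rangeRestrict) q := by
  intro q hq hqlam hqM hq2
  obtain ⟨N, hN0, hqN, rfl⟩ := exists_eq_mul_of_dvd_of_not_sq_dvd (NeZero.ne M) hqM hq2
  have : NeZero N := ⟨hN0⟩
  have : NeZero q := ⟨hq.ne_zero⟩
  have hlam : lam.Prime := Fact.out
  obtain ⟨r, hr, hχ, a, hnew⟩ := hNP N q hq hqN hg S hMS chig hchig lam hlam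
  exact key_of_newProj_b2new lam N q S (iota.comp chig.rangeRestrict)
    ⟨r, hr, Fermat.Agent.S35.H96.chi_ne_zero chig iota hχ, a, hnew⟩
    (hB2 N q lam hq hlam (Ne.symm hqlam) hqN)

/-- **S35 from (NEWPROJ) and (B2new)**, in the binder shape of the frozen statement. -/
theorem s35_of_newProj_b2new (hNP : NewProjFamily) (hB2 : B2newFamily)
    {M : ℕ} [NeZero M] {g : CuspForm (CongruenceSubgroup.Gamma0 M) 2} (hg : g.IsNewform)
    (lam : ℕ) [Fact lam.Prime]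
    (S : Finset ℕ)
    (O' : Type) [CommRing O'] [IsDomain O'] [IsDiscreteValuationRing O']
    [IsAdicComplete (IsLocalRing.maximalIdeal O') O'] [Finite (IsLocalRing.ResidueField O')]
    [CharZero O'] (hlamO' : (lam : O') ∈ IsLocalRing.maximalIdeal O')
    (chig : CuspForm.heckeAlgebra M 2 (↑S : Set ℕ) →+* ℂ)
    (hchig : ∀ (ℓ : ℕ) (hℓ : ℓ.Prime) (hℓM : ¬ ℓ ∣ M) (hℓS : ℓ ∉ (↑S : Set ℕ)),
      chig (CuspForm.heckeAlgebra.T hℓ hℓM hℓS) = ModularFormClass.qCoeff g ℓ)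
    (iota : chig.range →+* O')
    (hlamS : lam ∈ S) (hMS : ∀ q : ℕ, q.Prime → q ∣ M → q ∈ S) :
    ∃ (O'' : Type) (_ : CommRing O'') (_ : IsDomain O'') (_ : IsDiscreteValuationRing O'')
      (_ : IsAdicComplete (IsLocalRing.maximalIdeal O'') O'') (_ : Finite (IsLocalRing.ResidueField O''))
      (_ : CharZero O'') (_ : Algebra O' O'') (_ : Module.Finite O' O'') (_ : IsLocalHom (algebraMap O' O'')),
      Function.Injective (algebraMap O' O'') ∧
      ∃ ρ : GaloisRepAdic O'',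
        (∀ (ℓ : ℕ) (hℓ : ℓ.Prime) (hℓM : ¬ ℓ ∣ M) (hℓS : ℓ ∉ (↑S : Set ℕ)),
          ∀ A : ValuationSubring (AlgebraicClosure ℚ), A.LiesOverPrime ℓ →
            ∀ σ : AlgebraicClosure ℚ ≃ₐ[ℚ] AlgebraicClosure ℚ, A.IsFrobeniusAt σ ℓ →
              LinearMap.charpoly (ρ.ρ σ) =
                X ^ 2 - C (algebraMap O' O'' ((iota.comp chig.rangeRestrict) (CuspForm.heckeAlgebra.T hℓ hℓM hℓS))) * X
                  + C ((ℓ : O''))) ∧
        (∀ q : ℕ, q.Prime → q ≠ lam → q ∣ M → ¬ q ^ 2 ∣ M →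
          ∀ A : ValuationSubring (AlgebraicClosure ℚ), A.LiesOverPrime q →
            ∀ σ : AlgebraicClosure ℚ ≃ₐ[ℚ] AlgebraicClosure ℚ, A.IsFrobeniusAt σ q →
              LinearMap.charpoly (ρ.ρ σ) = X ^ 2 - C ((q : O'') + 1) * X + C ((q : O'')) ∨
              LinearMap.charpoly (ρ.ρ σ) = X ^ 2 + C ((q : O'') + 1) * X + C ((q : O''))) :=
  Fermat.Agent.S35.H90.s35_of_key' hg lam S O' hlamO' chig hchig iota hlamS hMS
    (key_of_families hNP hB2 hg lam S O' chig hchig iota hMS)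

end Fermat.Agent.S35.H95
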