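/-
S35 (helper95), leaf (ALG-TRDATA), part 1: the integral Abel–Jacobi maps WITH their
characterisation by helper96's Kummer relation `Rel`.

`exists_AJ_rel N m` : an additive map `AJ : Hom_par(Γ₀(N), ℤ) → J₀(N)(ℚ̄)` with kernel exactly
`m • Hom_par`, image killed by `m`, Hecke-equivariant for `T_ℓ`, `ℓ ∤ N`, and such that
`AJ ψ` is `Rel`-related to the reduction `redHom N m ψ` of `ψ` modulo `m`.
(`S42.H96.exists_AJ_pow` is the same statement without the last clause.)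
-/
import Mathlib
import Fermat.Agent.S42.H96.Final

set_option autoImplicit false

open CongruenceSubgroup ModularCurve ModularCurve.Period
open Fermat.Agent.S16.H75 (heckeHom heckeHom_comp)
open Fermat.Agent.S42.H96 (Hp Rel redHom redHom_mem_Hp redHom_eq_zero_iff redHom_add)

namespace Fermat.Agent.S35.H95

/-- **(R1) with `Rel`**: the integral Abel–Jacobi map at the modulus `m`, characterised by the
Kummer relation. -/
theorem exists_AJ_rel (N m : ℕ) [NeZero N] (hm : m ≠ 0) :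
    ∃ AJ : ↥(parabolicHoms ℤ (Gamma0 N) ℤ) →+ JZero N,
      (∀ ψ, AJ ψ = 0 ↔ ∃ φ : ↥(parabolicHoms ℤ (Gamma0 N) ℤ), ψ = m • φ) ∧
      (∀ ψ, m • AJ ψ = 0) ∧
      (∀ (ℓ : Nat.Primes), ¬ (ℓ : ℕ) ∣ N → ∀ ψ : ↥(parabolicHoms ℤ (Gamma0 N) ℤ),
        heckeOperatorBar N ℓ (AJ ψ) =
          AJ ⟨heckeHom N ℓ ℤ ψ, Fermat.Agent.S41.H26.heckeHom_mem_parabolicHoms N ℓ ψ.2⟩) ∧
      ∀ ψ : ↥(parabolicHoms ℤ (Gamma0 N) ℤ),
        Rel N m (redHom N m (ψ : Additive (Gamma0 N) →+ ℤ)) (AJ ψ) := by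
  obtain ⟨AJ, hinj, htors, hrel, hhecke⟩ := Fermat.Agent.S42.H96.exists_AJ_all N m hm
  let red : ↥(parabolicHoms ℤ (Gamma0 N) ℤ) →+ ↥(Hp N m) :=
    { toFun := fun ψ => ⟨redHom N m ψ, redHom_mem_Hp m ψ.2⟩
      map_zero' := Subtype.ext (AddMonoidHom.ext fun γ => by simp)
      map_add' := fun ψ ψ' => Subtype.ext (redHom_add N m ψ ψ') }
  refine ⟨AJ.comp red, fun ψ => ?_, fun ψ => htors _, fun ℓ hℓ ψ => ?_, fun ψ => hrel (red ψ)⟩
  · rw [AddMonoidHom.comp_apply, ← redHom_eq_zero_iff m ψ]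
    constructor
    · intro h
      have := hinj (h.trans (map_zero AJ).symm)
      exact congrArg Subtype.val this
    · intro h
      have : red ψ = 0 := Subtype.ext h
      rw [this, map_zero]
  · have hcomp : heckeHom N ℓ (ZMod m) (redHom N m ψ) = redHom N m (heckeHom N ℓ ℤ ψ) :=
      heckeHom_comp N ℓ (Int.castAddHom (ZMod m)) ψ
    have hmem : heckeHom N ℓ (ZMod m) ((red ψ : ↥(Hp N m)) : Additive (Gamma0 N) →+ ZMod m)
        ∈ Hp N m := by
      show heckeHom N ℓ (ZMod m) (redHom N m ψ) ∈ Hp N m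
      rw [hcomp]
      exact redHom_mem_Hp m (Fermat.Agent.S41.H26.heckeHom_mem_parabolicHoms N ℓ ψ.2)
    rw [AddMonoidHom.comp_apply, hhecke ℓ hℓ (red ψ) hmem, AddMonoidHom.comp_apply]
    congr 1
    exact Subtype.ext hcomp

end Fermat.Agent.S35.H95
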