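/-
S35-GEO, leaf (L6b), conjunct 6 over the inertia field (helper95; second route, from the regular
node): the transversality clause of `H27.Crossing` at the crossing points of the chart over the
inertia field `E`, from the S34 leaf `H77.RegularCrossLeaf` (`m(C_y) = (J, b)`, `J * b = q`).

* `node_le_sup` : in a local domain `R` with two primes `Q₁`, `Q₂ ∋ π`, `Q₁ ⊓ Q₂ ≤ (π)`, and
  `m_R = (J, b)`, `J * b = π ≠ 0`: `m_R ≤ Q₁ ⊔ Q₂`.
* `compPrime` : the prime of a chart `C ⊆ V` cut out by the maximal ideal of the valuation ring.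
* `fib_of_node` : the last clause of `H27.Crossing` at a point `x` of a chart on both components
  with reduced special fibre, from `m(C_x) = (J, b)`, `J * b = π`.
* `crossFibE_of_regular` : `RegularCrossLeaf →` the clause on the chart `chart (A ∩ E) jE`,
  `E = H92.inertiaField A K₀` (binder block of `H77.RegularCrossLeaf`).
-/
import Fermat.Agent.S34.H77.CrossDefs
import Fermat.Agent.S34.H92.CrossChartE
import Fermat.Agent.S34.H9.OneComp

set_option autoImplicit false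
set_option linter.style.haveILetI false
set_option linter.unusedSectionVars false
set_option linter.unusedVariables false

open AlgebraicCurve ModularCurve

noncomputable section

namespace Fermat.Agent.S35.H95


open IsLocalRing

/-- **A regular node is transversal.** -/
theorem node_le_sup {R : Type*} [CommRing R] [IsDomain R] [IsLocalRing R] (π : R) (hπ0 : π ≠ 0)
    (Q₁ Q₂ : Ideal R) [hQ₁ : Q₁.IsPrime] [hQ₂ : Q₂.IsPrime] (hπ₁ : π ∈ Q₁) (hπ₂ : π ∈ Q₂)
    (hinf : Q₁ ⊓ Q₂ ≤ Ideal.span {π}) (J b : R) (hJb : J * b = π)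
    (hmax : maximalIdeal R = Ideal.span {J, b}) :
    maximalIdeal R ≤ Q₁ ⊔ Q₂ := by
  have hJm : J ∈ maximalIdeal R := by
    rw [hmax]; exact Ideal.subset_span (by simp)
  have hbm : b ∈ maximalIdeal R := by
    rw [hmax]; exact Ideal.subset_span (by simp)
  have hJ0 : J ≠ 0 := fun h => hπ0 (by rw [← hJb, h, zero_mul])
  have hb0 : b ≠ 0 := fun h => hπ0 (by rw [← hJb, h, mul_zero])
  -- neither `J` nor `b` lies in both primes
  have hJ : ¬ (J ∈ Q₁ ∧ J ∈ Q₂) := by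
    rintro ⟨h1, h2⟩
    obtain ⟨t, ht⟩ := Ideal.mem_span_singleton.1 (hinf ⟨h1, h2⟩)
    have h3 : J * (1 - b * t) = 0 := by rw [mul_sub, mul_one, ← mul_assoc, hJb, ← ht, sub_self]
    have hu : IsUnit (1 - b * t) := by
      by_contra hnu
      have h4 : 1 - b * t ∈ maximalIdeal R := (mem_maximalIdeal _).2 hnu
      have h5 : (1 : R) ∈ maximalIdeal R := by
        have := (maximalIdeal R).add_mem h4 ((maximalIdeal R).mul_mem_right t hbm)
        rwa [sub_add_cancel] at this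
      exact (maximalIdeal.isMaximal R).ne_top ((Ideal.eq_top_iff_one _).2 h5)
    exact hJ0 ((mul_eq_zero.1 h3).resolve_right hu.ne_zero)
  have hb : ¬ (b ∈ Q₁ ∧ b ∈ Q₂) := by
    rintro ⟨h1, h2⟩
    obtain ⟨t, ht⟩ := Ideal.mem_span_singleton.1 (hinf ⟨h1, h2⟩)
    have h3 : b * (1 - J * t) = 0 := by
      rw [mul_sub, mul_one, ← mul_assoc, mul_comm b J, hJb, ← ht, sub_self]
    have hu : IsUnit (1 - J * t) := by
      by_contra hnu
      have h4 : 1 - J * t ∈ maximalIdeal R := (mem_maximalIdeal _).2 hnu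
      have h5 : (1 : R) ∈ maximalIdeal R := by
        have := (maximalIdeal R).add_mem h4 ((maximalIdeal R).mul_mem_right t hJm)
        rwa [sub_add_cancel] at this
      exact (maximalIdeal.isMaximal R).ne_top ((Ideal.eq_top_iff_one _).2 h5)
    exact hb0 ((mul_eq_zero.1 h3).resolve_right hu.ne_zero)
  have h1 : J ∈ Q₁ ∨ b ∈ Q₁ := hQ₁.mem_or_mem (by rw [hJb]; exact hπ₁)
  have h2 : J ∈ Q₂ ∨ b ∈ Q₂ := hQ₂.mem_or_mem (by rw [hJb]; exact hπ₂)
  rw [hmax, Ideal.span_le]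
  rintro y (rfl | rfl)
  · rcases h1 with h | h
    · exact Ideal.mem_sup_left h
    · rcases h2 with h' | h'
      · exact Ideal.mem_sup_right h'
      · exact absurd ⟨h, h'⟩ hb
  · rcases h2 with h | h
    · rcases h1 with h' | h'
      · exact absurd ⟨h', h⟩ hJ
      · exact Ideal.mem_sup_left h'
    · exact Ideal.mem_sup_right h

section Chart

variable {A₀ F : Type*} [CommRing A₀] [Field F] [Algebra A₀ F]

/-- The prime ideal of a chart `C ⊆ V` cut out by the maximal ideal of the valuation ring `V`. -/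
def compPrime (C : Subalgebra A₀ F) (V : ValuationSubring F) (hCV : ∀ c ∈ C, c ∈ V) :
    Ideal ↥C :=
  (maximalIdeal ↥V).comap ((C.val.toRingHom).codRestrict V (fun c => hCV _ c.2))

instance compPrime_isPrime (C : Subalgebra A₀ F) (V : ValuationSubring F)
    (hCV : ∀ c ∈ C, c ∈ V) : (compPrime C V hCV).IsPrime :=
  Ideal.comap_isPrime _ _

theorem mem_compPrime (C : Subalgebra A₀ F) (V : ValuationSubring F) (hCV : ∀ c ∈ C, c ∈ V)
    (c : ↥C) : c ∈ compPrime C V hCV ↔ (c : F) ∈ V.nonunits :=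
  (ValuationSubring.coe_mem_nonunits_iff (A := V) (a := ⟨(c : F), hCV _ c.2⟩)).symm

/-- **Transversality at a regular node of a chart.** -/
theorem fib_of_node (C : Subalgebra A₀ F) (V₁ V₂ : ValuationSubring F)
    (hCV₁ : ∀ c ∈ C, c ∈ V₁) (hCV₂ : ∀ c ∈ C, c ∈ V₂)
    (x : Ideal ↥C) [hx : x.IsPrime] (π : ↥C) (hπ0 : π ≠ 0)
    (hπ₁ : (π : F) ∈ V₁.nonunits) (hπ₂ : (π : F) ∈ V₂.nonunits)
    (hred : ∀ c : ↥C, (c : F) ∈ V₁.nonunits → (c : F) ∈ V₂.nonunits → ∃ d : ↥C, c = π * d)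
    (hx₁ : ∀ c : ↥C, (c : F) ∈ V₁.nonunits → c ∈ x)
    (hx₂ : ∀ c : ↥C, (c : F) ∈ V₂.nonunits → c ∈ x)
    (R : Type*) [CommRing R] [IsDomain R] [IsLocalRing R] [Algebra ↥C R]
    [IsLocalization.AtPrime R x]
    (J b : R) (hJb : J * b = algebraMap ↥C R π)
    (hmax : maximalIdeal R = Ideal.span {J, b})
    (r : ↥C) (hr : r ∈ x) :
    ∃ p₁ p₂ s : ↥C, s ∉ x ∧ (p₁ : F) ∈ V₁.nonunits ∧ (p₂ : F) ∈ V₂.nonunits ∧
      s * r = p₁ + p₂ := by
  set P1 : Ideal ↥C := compPrime C V₁ hCV₁ with hP1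
  set P2 : Ideal ↥C := compPrime C V₂ hCV₂ with hP2
  have hP1x : P1 ≤ x := fun c hc => hx₁ c ((mem_compPrime C V₁ hCV₁ c).1 hc)
  have hP2x : P2 ≤ x := fun c hc => hx₂ c ((mem_compPrime C V₂ hCV₂ c).1 hc)
  have hinj : Function.Injective (algebraMap ↥C R) :=
    IsLocalization.injective R (M := x.primeCompl)
      (fun s hs => mem_nonZeroDivisors_of_ne_zero (fun h0 => hs (by rw [h0]; exact x.zero_mem)))
  have hd1 : Disjoint (x.primeCompl : Set ↥C) (P1 : Set ↥C) :=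
    Set.disjoint_left.2 fun s hs hsP => hs (hP1x hsP)
  have hd2 : Disjoint (x.primeCompl : Set ↥C) (P2 : Set ↥C) :=
    Set.disjoint_left.2 fun s hs hsP => hs (hP2x hsP)
  have hQ1 : (Ideal.map (algebraMap ↥C R) P1).IsPrime :=
    IsLocalization.isPrime_of_isPrime_disjoint x.primeCompl R P1 inferInstance hd1
  have hQ2 : (Ideal.map (algebraMap ↥C R) P2).IsPrime :=
    IsLocalization.isPrime_of_isPrime_disjoint x.primeCompl R P2 inferInstance hd2
  have hπR0 : algebraMap ↥C R π ≠ 0 := fun h => hπ0 (hinj (by rw [h, map_zero]))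
  have hπP1 : π ∈ P1 := (mem_compPrime C V₁ hCV₁ π).2 hπ₁
  have hπP2 : π ∈ P2 := (mem_compPrime C V₂ hCV₂ π).2 hπ₂
  have hinf : Ideal.map (algebraMap ↥C R) P1 ⊓ Ideal.map (algebraMap ↥C R) P2
      ≤ Ideal.span {algebraMap ↥C R π} := by
    rintro y ⟨hy1, hy2⟩
    obtain ⟨⟨p₁, s₁⟩, h₁⟩ := (IsLocalization.mem_map_algebraMap_iff x.primeCompl R).mp hy1
    obtain ⟨⟨p₂, s₂⟩, h₂⟩ := (IsLocalization.mem_map_algebraMap_iff x.primeCompl R).mp hy2
    simp only at h₁ h₂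
    -- `p₁ s₂ = p₂ s₁` lies on both components
    have e : (p₁ : ↥C) * (s₂ : ↥C) = (p₂ : ↥C) * (s₁ : ↥C) := by
      apply hinj
      rw [map_mul, map_mul, ← h₁, ← h₂]
      ring
    have hc1 : (p₁ : ↥C) * (s₂ : ↥C) ∈ P1 := P1.mul_mem_right _ p₁.2
    have hc2 : (p₁ : ↥C) * (s₂ : ↥C) ∈ P2 := by rw [e]; exact P2.mul_mem_right _ p₂.2
    obtain ⟨d, hd⟩ := hred _ ((mem_compPrime C V₁ hCV₁ _).1 hc1)
      ((mem_compPrime C V₂ hCV₂ _).1 hc2)
    have hu : IsUnit (algebraMap ↥C R ((s₁ : ↥C) * (s₂ : ↥C))) :=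
      IsLocalization.map_units R (s₁ * s₂)
    obtain ⟨v, hv⟩ := hu
    rw [Ideal.mem_span_singleton]
    refine ⟨algebraMap ↥C R d * ((v⁻¹ : Rˣ) : R), ?_⟩
    have h3 : y * (v : R) = algebraMap ↥C R π * algebraMap ↥C R d := by
      rw [hv, map_mul, ← mul_assoc, h₁, ← map_mul, ← map_mul, hd]
    calc y = y * (v : R) * ((v⁻¹ : Rˣ) : R) := by rw [mul_assoc, Units.mul_inv, mul_one]
      _ = algebraMap ↥C R π * (algebraMap ↥C R d * ((v⁻¹ : Rˣ) : R)) := by rw [h3, mul_assoc]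
  have hsup0 := node_le_sup (algebraMap ↥C R π) hπR0 (Ideal.map (algebraMap ↥C R) P1)
    (Ideal.map (algebraMap ↥C R) P2) (Ideal.mem_map_of_mem _ hπP1) (Ideal.mem_map_of_mem _ hπP2)
    hinf J b hJb hmax
  -- the image of `r` lies in the maximal ideal
  have hrm : algebraMap ↥C R r ∈ maximalIdeal R := by
    rw [← IsLocalization.AtPrime.map_eq_maximalIdeal x R]
    exact Ideal.mem_map_of_mem _ hr
  obtain ⟨a, ha, b', hb', hab⟩ := Submodule.mem_sup.mp (hsup0 hrm)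
  obtain ⟨⟨p₁, s₁⟩, h₁⟩ := (IsLocalization.mem_map_algebraMap_iff x.primeCompl R).mp ha
  obtain ⟨⟨p₂, s₂⟩, h₂⟩ := (IsLocalization.mem_map_algebraMap_iff x.primeCompl R).mp hb'
  simp only at h₁ h₂
  have h3 : (s₁ : ↥C) * (s₂ : ↥C) * r = (p₁ : ↥C) * (s₂ : ↥C) + (p₂ : ↥C) * (s₁ : ↥C) := by
    apply hinj
    rw [map_mul, map_mul, map_add, map_mul, map_mul, ← hab, ← h₁, ← h₂]
    ring
  refine ⟨(p₁ : ↥C) * (s₂ : ↥C), (p₂ : ↥C) * (s₁ : ↥C), (s₁ : ↥C) * (s₂ : ↥C), ?_, ?_, ?_, h3⟩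
  · intro h5
    exact (hx.mem_or_mem h5).elim s₁.2 s₂.2
  · exact (mem_compPrime C V₁ hCV₁ _).1 (P1.mul_mem_right _ p₁.2)
  · exact (mem_compPrime C V₂ hCV₂ _).1 (P2.mul_mem_right _ p₂.2)

end Chart


section Concrete

open Fermat.Agent.S34.H27 Fermat.Agent.S34.H10 Fermat.Agent.S34.H7
  Fermat.Agent.S18 Fermat.Agent.S18.H74 Fermat.Agent.S18.H19 Fermat.Agent.S34.H19
  Fermat.Agent.S34.H61 Fermat.Agent.S34.H64 Fermat.Agent.S34.H30 Fermat.Agent.S34.H77

set_option maxHeartbeats 1000000 in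
set_option synthInstance.maxHeartbeats 400000 in
/-- **Transversality at the crossing points over the inertia field, from the regular node.** -/
theorem crossFibE_of_regular (hreg : RegularCrossLeaf) :
    ∀ (M q : ℕ) [NeZero M] [Fact q.Prime] (hqM : ¬ q ∣ M), LevelOK M q →
    ∀ (A : ValuationSubring Kb) (hA : A.LiesOverPrime q) (_hAtop : A ≠ ⊤)
      (O₁ : ValuationSubring (FN (M * q))) (w : FN (M * q) ≃+* FN (M * q)),
      TwoGauss M q hqM A hA O₁ w →
      ∀ (x₀ : FN M), IsBase M q hqM A hA x₀ → StdB M q x₀ →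
      ∀ (K₀ : IntermediateField ℚ Kb) [FiniteDimensional ℚ K₀] [Normal ℚ K₀]
        (jE : ↥(ratForm (M * q) (Fermat.Agent.S34.H92.inertiaField A K₀))),
        (jE : FN (M * q)) = heckeAlphaBar Kb M q x₀ →
        letI := algComap (A.comap (algebraMap (Fermat.Agent.S34.H92.inertiaField A K₀) Kb))
          (ratForm (M * q) (Fermat.Agent.S34.H92.inertiaField A K₀))
        ∀ (y : Ideal ↥(chart ↥(A.comap (algebraMap (Fermat.Agent.S34.H92.inertiaField A K₀) Kb))
            jE)), y.IsMaximal →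
          (∀ c : ↥(chart ↥(A.comap (algebraMap (Fermat.Agent.S34.H92.inertiaField A K₀) Kb)) jE),
            (c : ↥(ratForm (M * q) (Fermat.Agent.S34.H92.inertiaField A K₀))) ∈
              (O₁.comap (algebraMap ↥(ratForm (M * q) (Fermat.Agent.S34.H92.inertiaField A K₀))
                (FN (M * q)))).nonunits → c ∈ y) →
          (∀ c : ↥(chart ↥(A.comap (algebraMap (Fermat.Agent.S34.H92.inertiaField A K₀) Kb)) jE),
            (c : ↥(ratForm (M * q) (Fermat.Agent.S34.H92.inertiaField A K₀))) ∈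
              ((gaussTwo M q O₁ w).comap
                (algebraMap ↥(ratForm (M * q) (Fermat.Agent.S34.H92.inertiaField A K₀))
                  (FN (M * q)))).nonunits → c ∈ y) →
          ∀ r : ↥(chart ↥(A.comap (algebraMap (Fermat.Agent.S34.H92.inertiaField A K₀) Kb)) jE),
            r ∈ y →
            ∃ p₁ p₂ s : ↥(chart ↥(A.comap (algebraMap (Fermat.Agent.S34.H92.inertiaField A K₀) Kb))
                jE),
              s ∉ y ∧
              (p₁ : ↥(ratForm (M * q) (Fermat.Agent.S34.H92.inertiaField A K₀))) ∈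
                (O₁.comap (algebraMap ↥(ratForm (M * q) (Fermat.Agent.S34.H92.inertiaField A K₀))
                  (FN (M * q)))).nonunits ∧
              (p₂ : ↥(ratForm (M * q) (Fermat.Agent.S34.H92.inertiaField A K₀))) ∈
                ((gaussTwo M q O₁ w).comap
                  (algebraMap ↥(ratForm (M * q) (Fermat.Agent.S34.H92.inertiaField A K₀))
                    (FN (M * q)))).nonunits ∧
              s * r = p₁ + p₂ := by
  intro M q _ _ hqM hlev A hA hAtop O₁ w hTG x₀ hx₀ hB K₀ _ _ jE hjE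
  letI algE := algComap (A.comap (algebraMap (Fermat.Agent.S34.H92.inertiaField A K₀) Kb))
    (ratForm (M * q) (Fermat.Agent.S34.H92.inertiaField A K₀))
  intro y hy h₁ h₂ r hr
  have hqp : q.Prime := Fact.out
  haveI : NeZero q := ⟨hqp.ne_zero⟩
  obtain ⟨π, e, g, hIB, -, -⟩ :=
    Fermat.Agent.S34.H92.inertiaBase_exists (A := A) (K := K₀) q hqp hA
  haveI hfinE : FiniteDimensional ℚ ↥(Fermat.Agent.S34.H92.inertiaField A K₀) := hIB.fin
  have hqE : Irreducible
      ((q : ℕ) : ↥(A.comap (algebraMap ↥(Fermat.Agent.S34.H92.inertiaField A K₀) Kb))) :=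
    hIB.irreducible_natCast hqp hA
  have hV := Fermat.Agent.S34.H92.vGood_unramified M q hqM A hA hAtop O₁ w hTG x₀ hx₀
    (Fermat.Agent.S34.H92.inertiaField A K₀) hqE jE hjE
  haveI hyp : y.IsPrime := hy.isPrime
  obtain ⟨J, b, hJb, hmax⟩ :=
    hreg M q hqM hlev A hA hAtop O₁ w hTG x₀ hx₀ hB K₀ jE hjE y hy h₁ h₂
  have hq0 : ((q : ℕ) : ↥(ratForm (M * q) (Fermat.Agent.S34.H92.inertiaField A K₀))) ≠ 0 :=
    Nat.cast_ne_zero.2 hqp.ne_zero
  have hqA0 : algebraMap ↥(A.comap (algebraMap ↥(Fermat.Agent.S34.H92.inertiaField A K₀) Kb))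
      ↥(ratForm (M * q) (Fermat.Agent.S34.H92.inertiaField A K₀))
      ((q : ℕ) : ↥(A.comap (algebraMap ↥(Fermat.Agent.S34.H92.inertiaField A K₀) Kb))) ≠ 0 := by
    rw [map_natCast]
    exact hq0
  have hqC : (((q : ℕ) :
      ↥(chart ↥(A.comap (algebraMap ↥(Fermat.Agent.S34.H92.inertiaField A K₀) Kb)) jE)) :
        ↥(ratForm (M * q) (Fermat.Agent.S34.H92.inertiaField A K₀))) = (q : ℕ) := by
    push_cast
    rfl
  have hπ0 : ((q : ℕ) :
      ↥(chart ↥(A.comap (algebraMap ↥(Fermat.Agent.S34.H92.inertiaField A K₀) Kb)) jE)) ≠ 0 := by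
    intro h0
    apply hq0
    rw [← hqC, h0]
    rfl
  have hsm : ∀ d : ↥(ratForm (M * q) (Fermat.Agent.S34.H92.inertiaField A K₀)),
      ((q : ℕ) : ↥(A.comap (algebraMap ↥(Fermat.Agent.S34.H92.inertiaField A K₀) Kb))) • d =
        ((q : ℕ) : ↥(ratForm (M * q) (Fermat.Agent.S34.H92.inertiaField A K₀))) * d := fun d => by
    rw [Algebra.smul_def, map_natCast]
  have hπ₁ : (((q : ℕ) :
      ↥(chart ↥(A.comap (algebraMap ↥(Fermat.Agent.S34.H92.inertiaField A K₀) Kb)) jE)) :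
        ↥(ratForm (M * q) (Fermat.Agent.S34.H92.inertiaField A K₀))) ∈
      (gaussOne M q O₁ (Fermat.Agent.S34.H92.inertiaField A K₀)).nonunits := by
    rw [hqC]
    exact (hV.unif₁ _).2 ⟨1, (gaussOne M q O₁ _).one_mem, by rw [hsm, mul_one]⟩
  have hπ₂ : (((q : ℕ) :
      ↥(chart ↥(A.comap (algebraMap ↥(Fermat.Agent.S34.H92.inertiaField A K₀) Kb)) jE)) :
        ↥(ratForm (M * q) (Fermat.Agent.S34.H92.inertiaField A K₀))) ∈
      (gaussTwoForm M q O₁ w (Fermat.Agent.S34.H92.inertiaField A K₀)).nonunits := by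
    rw [hqC]
    exact (hV.unif₂ _).2 ⟨1, (gaussTwoForm M q O₁ w _).one_mem, by rw [hsm, mul_one]⟩
  have hred0 := Fermat.Agent.S34.H9.red_of_unif_sat
    ((q : ℕ) : ↥(A.comap (algebraMap ↥(Fermat.Agent.S34.H92.inertiaField A K₀) Kb))) hqA0
    (chart ↥(A.comap (algebraMap ↥(Fermat.Agent.S34.H92.inertiaField A K₀) Kb)) jE)
    (gaussOne M q O₁ (Fermat.Agent.S34.H92.inertiaField A K₀))
    (gaussTwoForm M q O₁ w (Fermat.Agent.S34.H92.inertiaField A K₀)) hV.unif₁ hV.unif₂ hV.sat₁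
  have hred : ∀ c : ↥(chart ↥(A.comap (algebraMap ↥(Fermat.Agent.S34.H92.inertiaField A K₀) Kb))
      jE),
      (c : ↥(ratForm (M * q) (Fermat.Agent.S34.H92.inertiaField A K₀))) ∈
        (gaussOne M q O₁ (Fermat.Agent.S34.H92.inertiaField A K₀)).nonunits →
      (c : ↥(ratForm (M * q) (Fermat.Agent.S34.H92.inertiaField A K₀))) ∈
        (gaussTwoForm M q O₁ w (Fermat.Agent.S34.H92.inertiaField A K₀)).nonunits →
      ∃ d : ↥(chart ↥(A.comap (algebraMap ↥(Fermat.Agent.S34.H92.inertiaField A K₀) Kb)) jE),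
        c = ((q : ℕ) :
          ↥(chart ↥(A.comap (algebraMap ↥(Fermat.Agent.S34.H92.inertiaField A K₀) Kb)) jE)) *
            d := by
    intro c hc1 hc2
    obtain ⟨d, hd, hcd⟩ := hred0 _ c.2 hc1 hc2
    refine ⟨⟨d, hd⟩, Subtype.ext ?_⟩
    rw [hcd, hsm]
    push_cast
    rfl
  exact fib_of_node
    (chart ↥(A.comap (algebraMap ↥(Fermat.Agent.S34.H92.inertiaField A K₀) Kb)) jE)
    (gaussOne M q O₁ (Fermat.Agent.S34.H92.inertiaField A K₀))
    (gaussTwoForm M q O₁ w (Fermat.Agent.S34.H92.inertiaField A K₀)) hV.le₁₁ hV.le₁₂ y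
    ((q : ℕ) : ↥(chart ↥(A.comap (algebraMap ↥(Fermat.Agent.S34.H92.inertiaField A K₀) Kb)) jE))
    hπ0 hπ₁ hπ₂ hred h₁ h₂ (Localization.AtPrime y) J b (by rw [hJb, map_natCast]) hmax r hr

end Concrete

end Fermat.Agent.S35.H95
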