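/-
S35 (helper95), leaf (ALG-TRDATA), part 2: THE TRACE INSTANCE WITH ITS DATA.

A variant of `S30/H95/Inst.lean` which KEEPS the data of helper86's abstract limit lemma
(`S30/H86/TraceLimit.lean`) instead of forgetting it, for the top of S35 (helper90):

* the Abel–Jacobi family `AJ n : Lat N →+ JZero N` is a PARAMETER (any family with kernel
  `p ^ n • Lat` intertwining the Hecke operators — e.g. the `Rel`-characterised maps of
  `AJRel.lean`);
* the level groups are `Bs n := galSpan (AJ n)`, the subgroup generated by the Galois conjugates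
  `σ • AJ n ψ` (route (b) of the lead's NP2 note: every property of `Bs n` is proved by
  `galSpan_induction` from the generators);
* `IsTraceData p χ AJ c θ t` collects: the Hecke action `θ` on the lattice with its saturation
  exponent `c`, the intertwining of `AJ n`, the realisation property `hEX`, `TraceSpec` for the
  pseudo-trace `t`, and the clauses (t5)–(t8) of `S30.H95.TRStatement`;
* `exists_traceData` : such `c`, `θ`, `t` exist (from the landed leaves: S37 core, stable level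
  groups, Hecke action on the lattice, cyclic Frobenius density, cyclotomic lifts).
-/
import Mathlib
import Fermat.Prelude.Def_CuspForm_HeckeGaloisRepDatum
import Fermat.Prelude.Def_GaloisRep_ComplexConjugation
import Fermat.Agent.S31.H34.Leaves
import Fermat.Agent.S31.H76.CycLeaf
import Fermat.Agent.S29.H69.FrobCosetPos
import Fermat.Agent.S41.H40.Lattice
import Fermat.Agent.S29.H60.GaloisHecke
import Fermat.Agent.S30.H86.TraceCor
import Fermat.Agent.S37.H77.CoreFree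
import Fermat.Agent.S31.H94.Stable
import Fermat.Agent.S31.H75.HALeaf

set_option autoImplicit false

open CongruenceSubgroup ModularCurve ModularCurve.Period CuspForm
open Fermat.Agent.S16.H75 (heckeHom)
open Fermat.Agent.S31.H34 (Lat ESLeaf StableLeaf HALeaf)
open Fermat.Agent.S31.H76 (cycloInt cycloInt_one cycloInt_mul cycloInt_of_isFrobeniusAt
  cycloInt_of_mem_inertia cycloInt_complexConjugation exists_finite_level_cycloInt)
open Fermat.Agent.S30.H86 (exists_pseudoTrace hEX_of_frobenius TraceSpec)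

namespace Fermat.Agent.S35.H95

local notation "Qb" => AlgebraicClosure ℚ
local notation "Γ" => (AlgebraicClosure ℚ ≃ₐ[ℚ] AlgebraicClosure ℚ)

/-! ### The Galois span -/

section GalSpan

variable {N : ℕ} [NeZero N] {L : Type*} [AddCommGroup L]

/-- The subgroup of `J₀(N)(ℚ̄)` generated by the Galois conjugates of the values of `f`. -/
noncomputable def galSpan (f : L →+ JZero N) : AddSubgroup (JZero N) :=
  AddSubgroup.closure {x | ∃ (σ : Γ) (ψ : L), x = σ • f ψ}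

theorem smul_map_mem_galSpan (f : L →+ JZero N) (σ : Γ) (ψ : L) : σ • f ψ ∈ galSpan f :=
  AddSubgroup.subset_closure ⟨σ, ψ, rfl⟩

theorem map_mem_galSpan (f : L →+ JZero N) (ψ : L) : f ψ ∈ galSpan f := by
  have h := smul_map_mem_galSpan f 1 ψ
  have e : (1 : Γ) • f ψ = f ψ := one_smul Γ (f ψ)
  rwa [e] at h

/-- Induction on the Galois span: a property that holds at `0`, at the conjugates `σ • f ψ`, and
is stable under sums and negation holds on `galSpan f`. -/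
theorem galSpan_induction (f : L →+ JZero N) {P : JZero N → Prop} (h0 : P 0)
    (hgen : ∀ (σ : Γ) (ψ : L), P (σ • f ψ)) (hadd : ∀ x y, P x → P y → P (x + y))
    (hneg : ∀ x, P x → P (-x)) {x : JZero N} (hx : x ∈ galSpan f) : P x := by
  induction hx using AddSubgroup.closure_induction with
  | mem x hx =>
    obtain ⟨σ, ψ, rfl⟩ := hx
    exact hgen σ ψ
  | zero => exact h0
  | add x y _ _ hx hy => exact hadd x y hx hy
  | neg x _ hx => exact hneg x hx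

theorem smul_mem_galSpan (f : L →+ JZero N) (g : Γ) {x : JZero N} (hx : x ∈ galSpan f) :
    g • x ∈ galSpan f := by
  refine galSpan_induction f (P := fun x => g • x ∈ galSpan f) ?_ ?_ ?_ ?_ hx
  · have e : g • (0 : JZero N) = 0 := smul_zero (A := JZero N) g
    rw [e]
    exact zero_mem _
  · intro σ ψ
    have e : g • σ • f ψ = (g * σ) • f ψ := (mul_smul g σ (f ψ)).symm
    rw [e]
    exact smul_map_mem_galSpan f (g * σ) ψ
  · intro x y hx hy
    have e : g • (x + y) = g • x + g • y := smul_add g x y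
    rw [e]
    exact add_mem hx hy
  · intro x hx
    have e : g • (-x) = -(g • x) := smul_neg g x
    rw [e]
    exact neg_mem hx

/-- The Galois span lies in every Galois-stable subgroup containing the image. -/
theorem galSpan_le (f : L →+ JZero N) (Z : AddSubgroup (JZero N)) (hf : ∀ ψ, f ψ ∈ Z)
    (hZ : ∀ (g : Γ), ∀ x ∈ Z, g • x ∈ Z) : galSpan f ≤ Z := by
  refine (AddSubgroup.closure_le Z).2 ?_
  rintro _ ⟨σ, ψ, rfl⟩
  exact hZ σ _ (hf ψ)

end GalSpan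

/-! ### The Hecke generators -/

/-- The index set of the good Hecke operators: primes `ℓ ∤ N`, `ℓ ∉ S`. -/
abbrev HIdx (N : ℕ) (S : Finset ℕ) : Type := {ℓ : ℕ // ℓ.Prime ∧ ¬ ℓ ∣ N ∧ ℓ ∉ (↑S : Set ℕ)}

/-- The Hecke operators on `J₀(N)(ℚ̄)`. -/
noncomputable def TJ (N : ℕ) [NeZero N] (S : Finset ℕ) (i : HIdx N S) : AddMonoid.End (JZero N) :=
  (heckeOperatorBar N ⟨i.1, i.2.1⟩).toAddMonoidHom

/-- The Hecke operators in the Hecke algebra of forms. -/
noncomputable def TH (N : ℕ) [NeZero N] (S : Finset ℕ) (i : HIdx N S) :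
    CuspForm.heckeAlgebra N 2 (↑S : Set ℕ) :=
  CuspForm.heckeAlgebra.T i.2.1 i.2.2.1 i.2.2.2

theorem TJ_apply (N : ℕ) [NeZero N] (S : Finset ℕ) (i : HIdx N S) (x : JZero N) :
    TJ N S i x = heckeOperatorBar N ⟨i.1, i.2.1⟩ x := rfl

/-- The Hecke operators commute with the Galois action. -/
theorem TJ_smul (N : ℕ) [NeZero N] (S : Finset ℕ) (i : HIdx N S) (g : Γ) (x : JZero N) :
    TJ N S i (g • x) = g • TJ N S i x := by
  rw [TJ_apply, TJ_apply]
  exact (Fermat.Agent.S29.H60.galois_smul_heckeOperatorBar N ⟨i.1, i.2.1⟩ g x).symm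

/-! ### The trace datum -/

/-- **The trace datum** of a character `χ` of the Hecke algebra, relative to an Abel–Jacobi
family `AJ`: the Hecke action `θ` on the lattice with saturation exponent `c`, and the
pseudo-trace `t`, with the level groups `galSpan (AJ n)`. -/
structure IsTraceData (p : ℕ) [Fact p.Prime] {N : ℕ} [NeZero N] {S : Finset ℕ} {R : Type} [CommRing R]
    [IsLocalRing R] (χ : CuspForm.heckeAlgebra N 2 (↑S : Set ℕ) →+* R)
    (AJ : ℕ → Lat N →+ JZero N) (c : ℕ)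
    (θ : CuspForm.heckeAlgebra N 2 (↑S : Set ℕ) →+* AddMonoid.End (Lat N)) (t : Γ → R) :
    Prop where
  /-- `θ` is the action by `heckeHom` on the generators -/
  theta_T : ∀ (i : HIdx N S) (ψ : Lat N),
    ((θ (TH N S i) ψ : Lat N) : Additive (Gamma0 N) →+ ℤ) =
      heckeHom N ⟨i.1, i.2.1⟩ ℤ (ψ : Additive (Gamma0 N) →+ ℤ)
  /-- saturation (AR) -/
  har : ∀ (n : ℕ) (τ : CuspForm.heckeAlgebra N 2 (↑S : Set ℕ)),
    (∀ x : Lat N, ∃ y : Lat N, θ τ x = (p ^ n) • y) →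
      ∃ s : CuspForm.heckeAlgebra N 2 (↑S : Set ℕ),
        τ = (p : CuspForm.heckeAlgebra N 2 (↑S : Set ℕ)) ^ (n - c) * s
  /-- the Abel–Jacobi maps intertwine the Hecke generators -/
  hint : ∀ n i x, TJ N S i (AJ n x) = AJ n (θ (TH N S i) x)
  /-- realisation of `g + e g⁻¹` by Hecke pairs -/
  hEX : ∀ n g, ∃ τ : CuspForm.heckeAlgebra N 2 (↑S : Set ℕ),
    ∀ k ≤ n, Fermat.Agent.S30.H86.Rel (fun n => galSpan (AJ n)) (TJ N S) (TH N S) (cycloInt p) k g τ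
  /-- helper86's specification of the pseudo-trace -/
  spec : TraceSpec (IsLocalRing.maximalIdeal R) χ c (fun n => galSpan (AJ n)) (TJ N S) (TH N S)
    (cycloInt p) t
  /-- (t5) -/
  t_conj : t complexConjugation = 0
  /-- (t6) -/
  t_frob : ∀ (ℓ : ℕ) (hℓ : ℓ.Prime) (hℓN : ¬ ℓ ∣ N) (hℓS : ℓ ∉ (↑S : Set ℕ)),
    ∀ A : ValuationSubring (AlgebraicClosure ℚ), A.LiesOverPrime ℓ →
      ∀ σ : Γ, A.IsFrobeniusAt σ ℓ →
        t σ = χ (CuspForm.heckeAlgebra.T hℓ hℓN hℓS) ∧ t σ ^ 2 - t (σ ^ 2) = 2 * (ℓ : R)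
  /-- (t7) -/
  t_inertia : ∀ q : ℕ, q.Prime → ¬ q ∣ N → q ≠ p →
    ∀ A : ValuationSubring (AlgebraicClosure ℚ), A.LiesOverPrime q →
      ∀ σ ∈ A.inertiaSubgroupIn ℚ, ∀ g : Γ, t (σ * g) = t g
  /-- (t8) -/
  t_cont : ∀ n : ℕ, ∃ L : IntermediateField ℚ (AlgebraicClosure ℚ), FiniteDimensional ℚ L ∧
    ∀ σ : Γ, (∀ x ∈ L, σ x = x) → ∀ g : Γ, t (σ * g) - t g ∈ IsLocalRing.maximalIdeal R ^ n

/-- A family of finite-level conditions indexed by `ℕ` holds simultaneously up to `n` above one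
finite level. -/
theorem exists_level_le' (P : ℕ → Γ → Prop)
    (hP : ∀ k, ∃ E : IntermediateField ℚ Qb, FiniteDimensional ℚ E ∧
      ∀ σ : Γ, (∀ a ∈ E, σ a = a) → P k σ) (n : ℕ) :
    ∃ F : IntermediateField ℚ Qb, FiniteDimensional ℚ F ∧
      ∀ σ : Γ, (∀ a ∈ F, σ a = a) → ∀ k ≤ n, P k σ := by
  induction n with
  | zero =>
    obtain ⟨E, hE, h⟩ := hP 0
    exact ⟨E, hE, fun σ hσ k hk => by rw [Nat.le_zero.mp hk]; exact h σ hσ⟩
  | succ n ih =>
    obtain ⟨F, hF, hFP⟩ := ih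
    obtain ⟨E, hE, hEP⟩ := hP (n + 1)
    refine ⟨F ⊔ E, IntermediateField.finiteDimensional_sup F E, fun σ hσ k hk => ?_⟩
    rcases Nat.lt_or_ge k (n + 1) with hlt | hge
    · exact hFP σ (fun a ha => hσ a ((le_sup_left : F ≤ F ⊔ E) ha)) k (Nat.lt_succ_iff.mp hlt)
    · have hk' : k = n + 1 := le_antisymm hk hge
      rw [hk']
      exact hEP σ (fun a ha => hσ a ((le_sup_right : E ≤ F ⊔ E) ha))

variable {p : ℕ} [Fact p.Prime] {N : ℕ} [NeZero N] {S : Finset ℕ}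

omit [Fact p.Prime] in
/-- The image of an Abel–Jacobi map with kernel `p ^ n • Lat` is killed by `p ^ n`. -/
theorem pow_smul_AJ_eq_zero (AJ : Lat N →+ JZero N) (n : ℕ)
    (hAJker : ∀ ψ : Lat N, AJ ψ = 0 ↔ ∃ φ : Lat N, ψ = p ^ n • φ) (ψ : Lat N) :
    p ^ n • AJ ψ = 0 := by
  rw [← map_nsmul]
  exact (hAJker _).2 ⟨ψ, rfl⟩

omit [Fact p.Prime] in
/-- The Galois span of an Abel–Jacobi map with kernel `p ^ n • Lat` is killed by `p ^ n`. -/
theorem pow_smul_eq_zero_of_mem_galSpan (AJ : Lat N →+ JZero N) (n : ℕ)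
    (hAJker : ∀ ψ : Lat N, AJ ψ = 0 ↔ ∃ φ : Lat N, ψ = p ^ n • φ) {x : JZero N}
    (hx : x ∈ galSpan AJ) : p ^ n • x = 0 := by
  refine galSpan_induction AJ (P := fun x => p ^ n • x = 0) (nsmul_zero _) ?_ ?_ ?_ hx
  · intro σ ψ
    rw [smul_comm (p ^ n) σ (AJ ψ), pow_smul_AJ_eq_zero AJ n hAJker]
    exact smul_zero (A := JZero N) σ
  · intro x y hx hy
    rw [nsmul_add, hx, hy, add_zero]
  · intro x hx
    rw [neg_nsmul, hx, neg_zero]

/-- **(ALG-TRDATA), from the leaves.** -/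
theorem exists_traceData_of_leaves {R : Type} [CommRing R] [IsLocalRing R]
    [IsAdicComplete (IsLocalRing.maximalIdeal R) R]
    (χ : CuspForm.heckeAlgebra N 2 (↑S : Set ℕ) →+* R)
    (AJ : ℕ → Lat N →+ JZero N)
    (hAJker : ∀ (n : ℕ) (ψ : Lat N), AJ n ψ = 0 ↔ ∃ φ : Lat N, ψ = p ^ n • φ)
    (hAJT : ∀ (n : ℕ) (ℓ : Nat.Primes), ¬ (ℓ : ℕ) ∣ N → ∀ ψ ψ' : Lat N,
      (ψ' : Additive (Gamma0 N) →+ ℤ) = heckeHom N ℓ ℤ (ψ : Additive (Gamma0 N) →+ ℤ) →
        heckeOperatorBar N ℓ (AJ n ψ) = AJ n ψ')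
    (hES : ESLeaf N p) (hSt : StableLeaf N p) (hHA : HALeaf N p S)
    (hpR : (p : R) ∈ IsLocalRing.maximalIdeal R) (hpS : p ∈ S) :
    ∃ (c : ℕ) (θ : CuspForm.heckeAlgebra N 2 (↑S : Set ℕ) →+* AddMonoid.End (Lat N))
      (t : Γ → R), IsTraceData p χ AJ c θ t := by
  classical
  have hp : p.Prime := Fact.out
  -- the Hecke action on the lattice and its saturation exponent
  obtain ⟨Φ, c, hΦT, hsat⟩ := hHA
  let θ : CuspForm.heckeAlgebra N 2 (↑S : Set ℕ) →+* AddMonoid.End (Lat N) :=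
    ((addMonoidEndRingEquivInt (Lat N)).symm : Module.End ℤ (Lat N) →+* AddMonoid.End (Lat N)).comp Φ
  have hθ : ∀ (τ : CuspForm.heckeAlgebra N 2 (↑S : Set ℕ)) (x : Lat N), θ τ x = Φ τ x :=
    fun _ _ => rfl
  have har : ∀ (n : ℕ) (τ : CuspForm.heckeAlgebra N 2 (↑S : Set ℕ)),
      (∀ x : Lat N, ∃ y : Lat N, θ τ x = (p ^ n) • y) →
      ∃ s : CuspForm.heckeAlgebra N 2 (↑S : Set ℕ),
        τ = (p : CuspForm.heckeAlgebra N 2 (↑S : Set ℕ)) ^ (n - c) * s := by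
    intro n τ h
    rcases Nat.lt_or_ge n c with hlt | hge
    · exact ⟨τ, by rw [Nat.sub_eq_zero_of_le hlt.le, pow_zero, one_mul]⟩
    · obtain ⟨f', hf'⟩ := hsat (n - c) τ (fun ψ => by
        obtain ⟨y, hy⟩ := h ψ
        exact ⟨y, by rw [← hθ, hy, Nat.sub_add_cancel hge]⟩)
      exact ⟨f', by rw [hf', nsmul_eq_mul, Nat.cast_pow]⟩
  -- the level groups
  let Bs : ℕ → AddSubgroup (JZero N) := fun n => galSpan (AJ n)
  have hfin : Module.Finite ℤ (Lat N) := Fermat.Agent.S41.H40.finite_parabolicHoms_int N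
  have hfg : ∀ n, ((AJ n).range).FG := by
    intro n
    have h1 : AddGroup.FG (Lat N) := Module.Finite.iff_addGroup_fg.1 hfin
    exact (AddGroup.fg_iff_addSubgroup_fg _).1 (AddGroup.fg_range (AJ n))
  have hAJp : ∀ n, ∀ x ∈ (AJ n).range, p ^ n • x = 0 := by
    rintro n _ ⟨ψ, rfl⟩
    exact pow_smul_AJ_eq_zero (AJ n) n (hAJker n) ψ
  choose Z E hEfd hMZ hpZ hZG hZT hZE using fun n => hSt n (AJ n).range (hfg n) (hAJp n)
  have hBZ : ∀ n, Bs n ≤ Z n := fun n =>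
    galSpan_le (AJ n) (Z n) (fun ψ => hMZ n ⟨ψ, rfl⟩) (hZG n)
  have hBE : ∀ n (σ : Γ), (∀ a ∈ E n, σ a = a) → ∀ x ∈ Bs n, σ • x = x :=
    fun n σ hσ x hx => hZE n σ hσ x (hBZ n hx)
  have hBG' : ∀ n (g : Γ) (x : JZero N), x ∈ Bs n → g • x ∈ Bs n :=
    fun n g x hx => smul_mem_galSpan (AJ n) g hx
  have hpB' : ∀ n (x : JZero N), x ∈ Bs n → (p ^ n) • x = 0 :=
    fun n x hx => pow_smul_eq_zero_of_mem_galSpan (AJ n) n (hAJker n) hx
  have hAJB : ∀ n x, AJ n x ∈ Bs n := fun n x => map_mem_galSpan (AJ n) x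
  have hker : ∀ n x, AJ n x = 0 → ∃ y : Lat N, x = (p ^ n) • y := fun n x h => (hAJker n x).1 h
  -- the Hecke generators
  have hT : ∀ (i : HIdx N S) (x : JZero N), TJ N S i x = heckeOperatorBar N ⟨i.1, i.2.1⟩ x :=
    fun _ _ => rfl
  have hthT : ∀ (i : HIdx N S) (ψ : Lat N),
      ((θ (TH N S i) ψ : Lat N) : Additive (Gamma0 N) →+ ℤ) =
        heckeHom N ⟨i.1, i.2.1⟩ ℤ (ψ : Additive (Gamma0 N) →+ ℤ) :=
    fun i ψ => hΦT i.1 i.2.1 i.2.2.1 i.2.2.2 ψ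
  have hint : ∀ n i x, TJ N S i (AJ n x) = AJ n (θ (TH N S i) x) := by
    intro n i x
    rw [hT]
    exact hAJT n ⟨i.1, i.2.1⟩ i.2.2.1 x (θ (TH N S i) x) (hthT i x)
  have hGH : ∀ i (g : Γ) (x : JZero N), TJ N S i (g • x) = g • TJ N S i x :=
    fun i g x => TJ_smul N S i g x
  -- the cyclotomic lifts
  let e : ℕ → Γ → ℤ := fun n g => cycloInt p n g
  have he1 : ∀ n, ((p : ℤ) ^ n) ∣ e n 1 - 1 := fun n => cycloInt_one p n
  have hemul : ∀ n g h, ((p : ℤ) ^ n) ∣ e n (g * h) - e n g * e n h :=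
    fun n g h => cycloInt_mul p n g h
  -- facts about good primes
  have hgood : ∀ ℓ : ℕ, ℓ.Prime → ℓ ∉ (↑S : Set ℕ) → ℓ ≠ p := by
    rintro ℓ - hℓS rfl
    exact hℓS (Finset.mem_coe.mpr hpS)
  have hndvd : ∀ ℓ : ℕ, ℓ.Prime → ¬ ℓ ∣ N → ℓ ≠ p → ¬ ℓ ∣ N * p := by
    intro ℓ hℓ hℓN hℓp h
    rcases (Nat.Prime.dvd_mul hℓ).1 h with h1 | h1
    · exact hℓN h1
    · exact hℓp ((Nat.prime_dvd_prime_iff_eq hℓ hp).1 h1)
  -- the Eichler–Shimura relation on the level groups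
  have hquad : ∀ (i : HIdx N S) (A : ValuationSubring Qb), A.LiesOverPrime i.1 → ∀ σ : Γ,
      A.IsFrobeniusAt σ i.1 → ∀ n, ∀ x ∈ Bs n,
        σ • σ • x - TJ N S i (σ • x) + ((i.1 : ℕ) : ℤ) • x = 0 := by
    intro i A hA σ hσ n x hx
    have h1 := (hES i.1 i.2.1 (hndvd i.1 i.2.1 i.2.2.1 (hgood i.1 i.2.1 i.2.2.2)) A hA x
      ⟨n, hpB' n x hx⟩).2 σ hσ
    rw [hT, natCast_zsmul]
    exact h1
  have hefrob : ∀ (i : HIdx N S) (A : ValuationSubring Qb), A.LiesOverPrime i.1 → ∀ σ : Γ,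
      A.IsFrobeniusAt σ i.1 → ∀ n, ((p : ℤ) ^ n) ∣ e n σ - ((i.1 : ℕ) : ℤ) :=
    fun i A hA σ hσ n => cycloInt_of_isFrobeniusAt p n i.2.1 (hgood i.1 i.2.1 i.2.2.2) hA hσ
  -- the common finite level
  have hlevel : ∀ n, ∃ F : IntermediateField ℚ Qb, FiniteDimensional ℚ F ∧
      ∀ σ : Γ, (∀ a ∈ F, σ a = a) → ∀ k ≤ n,
        (∀ x ∈ Bs k, σ • x = x) ∧ ((p : ℤ) ^ k ∣ e k σ - 1) := by
    intro n
    refine exists_level_le' (fun k σ => (∀ x ∈ Bs k, σ • x = x) ∧ ((p : ℤ) ^ k ∣ e k σ - 1))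
      (fun k => ?_) n
    obtain ⟨E', hE', hE'e⟩ := exists_finite_level_cycloInt p k
    refine ⟨E k ⊔ E', IntermediateField.finiteDimensional_sup (E k) E', fun σ hσ => ⟨?_, ?_⟩⟩
    · exact hBE k σ (fun a ha => hσ a ((le_sup_left : E k ≤ E k ⊔ E') ha))
    · exact (hE'e σ (fun a ha => hσ a ((le_sup_right : E' ≤ E k ⊔ E') ha))).1
  -- Frobenius density
  have hdens : ∀ (n : ℕ) (g : Γ), ∃ (i : HIdx N S) (ℓ : ℤ) (σ : Γ) (m : ℕ),
      (∀ k ≤ n, ∀ x ∈ Bs k, σ • σ • x - TJ N S i (σ • x) + ℓ • x = 0) ∧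
      (∀ k ≤ n, ((p : ℤ) ^ k) ∣ e k σ - ℓ) ∧
      (∀ k ≤ n, ∀ x ∈ Bs k, g • x = σ ^ m • x) ∧
      (∀ k ≤ n, ((p : ℤ) ^ k) ∣ e k (σ ^ m) - e k g) := by
    intro n g
    obtain ⟨F, hFfd, hF⟩ := hlevel n
    obtain ⟨ℓ, A, h, m, hℓ, hBℓ, hA, hh, -, hm, -⟩ :=
      Fermat.Agent.S29.H69.exists_frobenius_pos_pow_mem_fixingSubgroup F g (N + S.sup id)
    have hℓN : ¬ ℓ ∣ N := fun hdvd =>
      absurd (Nat.le_of_dvd (Nat.pos_of_ne_zero (NeZero.ne N)) hdvd) (by omega)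
    have hℓS : ℓ ∉ (↑S : Set ℕ) := fun hmem => by
      have : ℓ ≤ S.sup id := Finset.le_sup (f := id) (Finset.mem_coe.mp hmem)
      omega
    have hfix : ∀ a ∈ F, (g⁻¹ * h ^ m) a = a := fun a ha =>
      (IntermediateField.mem_fixingSubgroup_iff F (g⁻¹ * h ^ m)).1 hm a ha
    refine ⟨⟨ℓ, hℓ, hℓN, hℓS⟩, (ℓ : ℤ), h, m, fun k _ x hx => ?_, fun k _ => ?_,
      fun k hk x hx => ?_, fun k hk => ?_⟩
    · exact hquad ⟨ℓ, hℓ, hℓN, hℓS⟩ A hA h hh k x hx
    · exact hefrob ⟨ℓ, hℓ, hℓN, hℓS⟩ A hA h hh k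
    · have h1 := (hF _ hfix k hk).1 x hx
      rw [mul_smul] at h1
      have h2 := congrArg (fun y => g • y) h1
      simpa using h2.symm
    · have h1 := (hF _ hfix k hk).2
      have h2 := hemul k g (g⁻¹ * h ^ m)
      rw [mul_inv_cancel_left] at h2
      have h3 : e k (h ^ m) - e k g =
          (e k (h ^ m) - e k g * e k (g⁻¹ * h ^ m)) + e k g * (e k (g⁻¹ * h ^ m) - 1) := by ring
      rw [h3]
      exact dvd_add h2 (Dvd.dvd.mul_left h1 _)
  have hEX := hEX_of_frobenius (Bs := Bs) (T := TJ N S) (Tgen := TH N S) (e := e) p hBG' hpB'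
    he1 hemul hdens
  -- the pseudo-trace
  obtain ⟨t, ht⟩ := exists_pseudoTrace (IsLocalRing.maximalIdeal R) χ p c hpR θ har Bs hBG' hpB'
    AJ hAJB hker (TJ N S) (TH N S) hint hGH e he1 hemul hEX
  refine ⟨c, θ, t, ⟨hthT, har, hint, hEX, ht, ?_, ?_, ?_, ?_⟩⟩
  · -- (t5) complex conjugation
    exact ht.eq_zero_of_involution p hBG' hpB' complexConjugation complexConjugation_mul_self
      (fun n => cycloInt_complexConjugation p n)
  · -- (t6) Frobenius elements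
    intro ℓ hℓ hℓN hℓS A hA σ hσ
    have h6 := ht.eq_of_quadratic p hpR hBG' hpB' σ (⟨ℓ, hℓ, hℓN, hℓS⟩ : HIdx N S) (ℓ : ℤ)
      (fun n x hx => hquad ⟨ℓ, hℓ, hℓN, hℓS⟩ A hA σ hσ n x hx)
      (fun n => hefrob ⟨ℓ, hℓ, hℓN, hℓS⟩ A hA σ hσ n)
    rw [Int.cast_natCast] at h6
    exact h6
  · -- (t7) inertia
    intro q hq hqN hqp A hA σ hσ g
    refine ht.mul_left_eq p hBG' hpB' hemul σ (fun n x hx => ?_)
      (fun n => cycloInt_of_mem_inertia p n hq hqp hA hσ) g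
    exact (hES q hq (hndvd q hq hqN hqp) A hA x ⟨n, hpB' n x hx⟩).1 σ hσ
  · -- (t8) continuity
    intro n
    obtain ⟨E', hE', hE'e⟩ := exists_finite_level_cycloInt p (n + c)
    refine ⟨E (n + c) ⊔ E', IntermediateField.finiteDimensional_sup (E (n + c)) E',
      fun σ hσ g => ?_⟩
    refine ht.mul_left_sub_mem p hBG' hpB' hemul n σ ?_ ?_ g
    · exact hBE (n + c) σ (fun a ha => hσ a ((le_sup_left : E (n + c) ≤ E (n + c) ⊔ E') ha))
    · exact (hE'e σ (fun a ha => hσ a ((le_sup_right : E' ≤ E (n + c) ⊔ E') ha))).1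

/-- **(ALG-TRDATA)**: the trace datum of a Hecke character, for any Abel–Jacobi family with
kernel `p ^ n • Lat` intertwining the Hecke operators.  Unconditional. -/
theorem exists_traceData {R : Type} [CommRing R] [IsLocalRing R]
    [IsAdicComplete (IsLocalRing.maximalIdeal R) R]
    (χ : CuspForm.heckeAlgebra N 2 (↑S : Set ℕ) →+* R)
    (AJ : ℕ → Lat N →+ JZero N)
    (hAJker : ∀ (n : ℕ) (ψ : Lat N), AJ n ψ = 0 ↔ ∃ φ : Lat N, ψ = p ^ n • φ)
    (hAJT : ∀ (n : ℕ) (ℓ : Nat.Primes), ¬ (ℓ : ℕ) ∣ N → ∀ ψ ψ' : Lat N,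
      (ψ' : Additive (Gamma0 N) →+ ℤ) = heckeHom N ℓ ℤ (ψ : Additive (Gamma0 N) →+ ℤ) →
        heckeOperatorBar N ℓ (AJ n ψ) = AJ n ψ')
    (hpR : (p : R) ∈ IsLocalRing.maximalIdeal R) (hpS : p ∈ S) :
    ∃ (c : ℕ) (θ : CuspForm.heckeAlgebra N 2 (↑S : Set ℕ) →+* AddMonoid.End (Lat N))
      (t : Γ → R), IsTraceData p χ AJ c θ t :=
  exists_traceData_of_leaves χ AJ hAJker hAJT (Fermat.Agent.S37.H77.core_free N p)
    (Fermat.Agent.S31.H94.stableLeaf N p) (Fermat.Agent.S31.H75.haLeaf N p Fact.out S) hpR hpS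

end Fermat.Agent.S35.H95
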