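/-
S35 (helper95), leaf (ALG-TRDATA), part 3: the closed form consumed by the top of S35.

`exists_AJ_traceData` : at every level `N`, for every prime `p ∈ S` and every character `χ` of
the Hecke algebra with values in an adically complete local ring `R` in which `p` is not a unit:
an Abel–Jacobi family `AJ n : Lat N →+ JZero N` (kernel `p ^ n • Lat`, Hecke-equivariant,
`AJ n ψ` related to `ψ mod p ^ n` by helper96's Kummer relation `Rel`) together with its trace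
datum `IsTraceData p χ AJ c θ t` (level groups `galSpan (AJ n)`).
-/
import Mathlib
import Fermat.Agent.S35.H95.AJRel
import Fermat.Agent.S35.H95.TraceData

set_option autoImplicit false

open CongruenceSubgroup ModularCurve ModularCurve.Period CuspForm
open Fermat.Agent.S16.H75 (heckeHom)
open Fermat.Agent.S31.H34 (Lat)
open Fermat.Agent.S42.H96 (Rel redHom)

namespace Fermat.Agent.S35.H95

local notation "Γ" => (AlgebraicClosure ℚ ≃ₐ[ℚ] AlgebraicClosure ℚ)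

variable {p : ℕ} [Fact p.Prime] {N : ℕ} [NeZero N] {S : Finset ℕ}

/-- **(ALG-TRDATA), closed form.** -/
theorem exists_AJ_traceData {R : Type} [CommRing R] [IsLocalRing R]
    [IsAdicComplete (IsLocalRing.maximalIdeal R) R]
    (χ : CuspForm.heckeAlgebra N 2 (↑S : Set ℕ) →+* R)
    (hpR : (p : R) ∈ IsLocalRing.maximalIdeal R) (hpS : p ∈ S) :
    ∃ (AJ : ℕ → Lat N →+ JZero N) (c : ℕ)
      (θ : CuspForm.heckeAlgebra N 2 (↑S : Set ℕ) →+* AddMonoid.End (Lat N)) (t : Γ → R),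
      (∀ (n : ℕ) (ψ : Lat N), AJ n ψ = 0 ↔ ∃ φ : Lat N, ψ = p ^ n • φ) ∧
      (∀ (n : ℕ) (ψ : Lat N),
        Rel N (p ^ n) (redHom N (p ^ n) (ψ : Additive (Gamma0 N) →+ ℤ)) (AJ n ψ)) ∧
      (∀ (n : ℕ) (ℓ : Nat.Primes), ¬ (ℓ : ℕ) ∣ N → ∀ ψ ψ' : Lat N,
        (ψ' : Additive (Gamma0 N) →+ ℤ) = heckeHom N ℓ ℤ (ψ : Additive (Gamma0 N) →+ ℤ) →
          heckeOperatorBar N ℓ (AJ n ψ) = AJ n ψ') ∧
      IsTraceData p χ AJ c θ t := by
  have hp : p.Prime := Fact.out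
  choose AJ hker htors hT hrel using fun n : ℕ => exists_AJ_rel N (p ^ n) (pow_ne_zero n hp.ne_zero)
  have hAJT : ∀ (n : ℕ) (ℓ : Nat.Primes), ¬ (ℓ : ℕ) ∣ N → ∀ ψ ψ' : Lat N,
      (ψ' : Additive (Gamma0 N) →+ ℤ) = heckeHom N ℓ ℤ (ψ : Additive (Gamma0 N) →+ ℤ) →
        heckeOperatorBar N ℓ (AJ n ψ) = AJ n ψ' := by
    intro n ℓ hℓ ψ ψ' hψ'
    rw [hT n ℓ hℓ ψ]
    congr 1
    exact Subtype.ext hψ'.symm
  obtain ⟨c, θ, t, h⟩ := exists_traceData χ AJ hker hAJT hpR hpS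
  exact ⟨AJ, c, θ, t, hker, hrel, hAJT, h⟩

end Fermat.Agent.S35.H95
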