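/-
S35 (helper95): THE TOP IN GALOIS-SPAN FORM (route (b) of the lead's NP2 note).

Same conclusion as helper90's `S35.H90.s35_of_key'` (the frozen S35), from the WEAKER hypothesis
`KeyStatementGal`: for the `Rel`-characterised Abel–Jacobi family `AJ n : Lat M →+ JZero M`
(kernel `λ ^ n • Lat`, Hecke-equivariant, `AJ n ψ` related to `ψ mod λ ^ n` by helper96's Kummer
relation), the operator `λ ^ a • ((σ + q σ⁻¹)² - (q + 1)²) ∘ r₁` only has to vanish on the
Galois spans `galSpan (AJ n)` — i.e. (by `galSpan_induction`) on the points `σ' • AJ n ψ` — and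
not on all of `J₀(M)[λ^∞]`.

* `IsTraceData.det_frob`      (t9)  : `t σ ^ 2 - t (σ ^ 2) = 2 q` at every Frobenius lift, `q ≠ p`;
* `IsTraceData.sq_eq_of_kill` (t10) : the killed square, hypothesis on `galSpan (AJ n)` only;
* `KeyStatementGal`, `keyStatementGal_of_key` (helper90's `KeyStatement` implies it);
* `s35_of_keyGal`, `s35_of_keyGal'` : the frozen S35 conclusion.
-/
import Fermat.Statements.S35
import Fermat.Agent.S30.H90.Rho
import Fermat.Agent.S35.H90.Top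
import Fermat.Agent.S35.H95.TraceFinal

set_option autoImplicit false
open Polynomial
open CuspForm
open ModularCurve CongruenceSubgroup ModularCurve.Period
open Fermat.Agent.S16.H75 (heckeHom)
open Fermat.Agent.S31.H34 (Lat)
open Fermat.Agent.S31.H76 (cycloInt cycloInt_of_isFrobeniusAt)
open Fermat.Agent.S42.H96 (Rel redHom)
open Fermat.Agent.S30.H86 (Rr TraceSpec)
open Fermat.Agent.S35.H90 (Bop)

namespace Fermat.Agent.S35.H95

local notation "Γ" => (AlgebraicClosure ℚ ≃ₐ[ℚ] AlgebraicClosure ℚ)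

section Clauses

variable {p : ℕ} [Fact p.Prime] {N : ℕ} [NeZero N] {S : Finset ℕ}
variable {R : Type} [CommRing R] [IsLocalRing R] [IsAdicComplete (IsLocalRing.maximalIdeal R) R]
variable {χ : CuspForm.heckeAlgebra N 2 (↑S : Set ℕ) →+* R} {AJ : ℕ → Lat N →+ JZero N} {c : ℕ}
variable {θ : CuspForm.heckeAlgebra N 2 (↑S : Set ℕ) →+* AddMonoid.End (Lat N)} {t : Γ → R}

/-- **(t9)** the determinant at every Frobenius lift away from `p` (bad primes included). -/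
theorem IsTraceData.det_frob (h : IsTraceData p χ AJ c θ t)
    (hpR : (p : R) ∈ IsLocalRing.maximalIdeal R) (q : ℕ) (hq : q.Prime) (hqp : q ≠ p)
    (A : ValuationSubring (AlgebraicClosure ℚ)) (hA : A.LiesOverPrime q) (σ : Γ)
    (hσ : A.IsFrobeniusAt σ q) : t σ ^ 2 - t (σ ^ 2) = 2 * (q : R) := by
  obtain ⟨-, -, -, -, -, heps, -, -, -, -⟩ := h.spec
  have hd : ∀ n, ((p : ℤ) ^ n) ∣ cycloInt p n σ - ((q : ℕ) : ℤ) :=
    fun n => cycloInt_of_isFrobeniusAt p n hq hqp hA hσ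
  have h0 : t σ ^ 2 - t (σ ^ 2) - 2 * (q : R) = 0 :=
    Fermat.Agent.S30.H86.eq_zero_of_forall_mem_pow (IsLocalRing.maximalIdeal R) c fun n => by
      have e1 := heps n σ
      have e2 : ((cycloInt p n σ : R) - (q : R)) ∈ IsLocalRing.maximalIdeal R ^ (n - c) := by
        obtain ⟨k, hk⟩ := hd n
        have e3 : ((cycloInt p n σ : R) - (q : R)) = ((p : R) ^ n) * (k : R) := by
          have := congrArg (Int.cast : ℤ → R) hk
          push_cast at this
          exact this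
        rw [e3]
        exact Ideal.mul_mem_right _ _
          (Ideal.pow_le_pow_right (Nat.sub_le n c) (Ideal.pow_mem_pow hpR n))
      have e4 : t σ ^ 2 - t (σ ^ 2) - 2 * (q : R)
          = (t σ ^ 2 - t (σ ^ 2) - 2 * (cycloInt p n σ : R))
            + 2 * ((cycloInt p n σ : R) - (q : R)) := by ring
      rw [e4]
      exact add_mem e1 (Ideal.mul_mem_left _ _ e2)
  exact sub_eq_zero.mp h0

/-- **(t10), Galois-span form**: the killed square.  If `r = (r₁, r₂)` lies in the ring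
generated by the Hecke pairs and `p ^ a • ((σ + q σ⁻¹)² - (q + 1)²) (r₁ x) = 0` for all
`x ∈ galSpan (AJ n)`, all `n`, then `p ^ a * χ r₂ * (t σ ^ 2 - (q + 1) ^ 2) = 0`. -/
theorem IsTraceData.sq_eq_of_kill (h : IsTraceData p χ AJ c θ t)
    (hAJker : ∀ (n : ℕ) (ψ : Lat N), AJ n ψ = 0 ↔ ∃ φ : Lat N, ψ = p ^ n • φ)
    (hpR : (p : R) ∈ IsLocalRing.maximalIdeal R) (q : ℕ) (hq : q.Prime) (hqp : q ≠ p)
    (A : ValuationSubring (AlgebraicClosure ℚ)) (hA : A.LiesOverPrime q) (σ : Γ)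
    (hσ : A.IsFrobeniusAt σ q)
    (r : AddMonoid.End (JZero N) × CuspForm.heckeAlgebra N 2 (↑S : Set ℕ))
    (hr : r ∈ Rr (TJ N S) (TH N S)) (a : ℕ)
    (hkill : ∀ n, ∀ x ∈ galSpan (AJ n),
      (p ^ a) • (Bop σ ((q : ℕ) : ℤ) (Bop σ ((q : ℕ) : ℤ) (r.1 x))
        - ((((q : ℕ) : ℤ) + 1) ^ 2) • r.1 x) = 0) :
    (p : R) ^ a * χ r.2 * (t σ ^ 2 - ((q : R) + 1) ^ 2) = 0 := by
  have hd : ∀ n, ((p : ℤ) ^ n) ∣ cycloInt p n σ - ((q : ℕ) : ℤ) :=
    fun n => cycloInt_of_isFrobeniusAt p n hq hqp hA hσ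
  have hex : ∀ n g, ∃ τ : CuspForm.heckeAlgebra N 2 (↑S : Set ℕ),
      Fermat.Agent.S30.H86.Rel (fun n => galSpan (AJ n)) (TJ N S) (TH N S) (cycloInt p) n g τ :=
    fun n g => by
      obtain ⟨τ, hτ⟩ := h.hEX n g
      exact ⟨τ, hτ n le_rfl⟩
  have h0 := Fermat.Agent.S35.H90.sq_eq_of_kill h.spec p hpR θ h.har
    (fun n g x hx => smul_mem_galSpan (AJ n) g hx)
    (fun n x hx => pow_smul_eq_zero_of_mem_galSpan (AJ n) n (hAJker n) hx)
    AJ (fun n x => map_mem_galSpan (AJ n) x) (fun n x hx => (hAJker n x).1 hx) h.hint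
    (fun i g x => TJ_smul N S i g x) hex σ ((q : ℕ) : ℤ) hd r hr a hkill
  rw [Int.cast_natCast] at h0
  exact h0

end Clauses

/-- **The key statement at a prime `q`, Galois-span form**: for every Abel–Jacobi family
characterised by `Rel`, a Hecke pair `r = (r₁, r₂)` with `χ r₂ ≠ 0` such that, for every
Frobenius lift `σ` at `q`, `p ^ a • ((σ + q σ⁻¹)² - (q + 1)²)` kills `r₁ (galSpan (AJ n))`. -/
def KeyStatementGal (p M : ℕ) [NeZero M] (S : Finset ℕ) {R : Type} [CommRing R]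
    (χ : CuspForm.heckeAlgebra M 2 (↑S : Set ℕ) →+* R) (q : ℕ) : Prop :=
  ∀ AJ : ℕ → Lat M →+ JZero M,
    (∀ (n : ℕ) (ψ : Lat M), AJ n ψ = 0 ↔ ∃ φ : Lat M, ψ = p ^ n • φ) →
    (∀ (n : ℕ) (ψ : Lat M),
      Rel M (p ^ n) (redHom M (p ^ n) (ψ : Additive (Gamma0 M) →+ ℤ)) (AJ n ψ)) →
    (∀ (n : ℕ) (ℓ : Nat.Primes), ¬ (ℓ : ℕ) ∣ M → ∀ ψ ψ' : Lat M,
      (ψ' : Additive (Gamma0 M) →+ ℤ) = heckeHom M ℓ ℤ (ψ : Additive (Gamma0 M) →+ ℤ) →
        heckeOperatorBar M ℓ (AJ n ψ) = AJ n ψ') →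
    ∃ r ∈ Rr (TJ M S) (TH M S), ∃ a : ℕ, χ r.2 ≠ 0 ∧
      ∀ A : ValuationSubring (AlgebraicClosure ℚ), A.LiesOverPrime q →
        ∀ σ : Γ, A.IsFrobeniusAt σ q →
          ∀ (n : ℕ), ∀ x ∈ galSpan (AJ n),
            (p ^ a) • (Bop σ ((q : ℕ) : ℤ) (Bop σ ((q : ℕ) : ℤ) (r.1 x))
              - ((((q : ℕ) : ℤ) + 1) ^ 2) • r.1 x) = 0

/-- helper90's `KeyStatement` (all `p`-power torsion) implies the Galois-span form. -/
theorem keyStatementGal_of_key {p M : ℕ} [NeZero M] {S : Finset ℕ} {R : Type} [CommRing R]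
    {χ : CuspForm.heckeAlgebra M 2 (↑S : Set ℕ) →+* R} {q : ℕ}
    (h : Fermat.Agent.S35.H90.KeyStatement p M S χ q) : KeyStatementGal p M S χ q := by
  intro AJ hker _ _
  obtain ⟨r, hr, a, hχ, hkill⟩ := h
  exact ⟨r, hr, a, hχ, fun A hA σ hσ n x hx =>
    hkill A hA σ hσ n x (pow_smul_eq_zero_of_mem_galSpan (AJ n) n (hker n) hx)⟩

/-- **S35 from the key statement in Galois-span form** (the conclusion is verbatim that of the
frozen S35). -/
theorem s35_of_keyGal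
    {M : ℕ} [NeZero M]
    (lam : ℕ) [Fact lam.Prime]
    (S : Finset ℕ)
    (O' : Type) [CommRing O'] [IsDomain O'] [IsDiscreteValuationRing O']
    [IsAdicComplete (IsLocalRing.maximalIdeal O') O'] [Finite (IsLocalRing.ResidueField O')]
    [CharZero O'] (hlamO' : (lam : O') ∈ IsLocalRing.maximalIdeal O')
    (chig : CuspForm.heckeAlgebra M 2 (↑S : Set ℕ) →+* ℂ)
    (iota : chig.range →+* O')
    (hlamS : lam ∈ S)
    (hKey : ∀ q : ℕ, q.Prime → q ≠ lam → q ∣ M → ¬ q ^ 2 ∣ M →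
      KeyStatementGal lam M S (iota.comp chig.rangeRestrict) q) :
    ∃ (O'' : Type) (_ : CommRing O'') (_ : IsDomain O'') (_ : IsDiscreteValuationRing O'')
      (_ : IsAdicComplete (IsLocalRing.maximalIdeal O'') O'') (_ : Finite (IsLocalRing.ResidueField O''))
      (_ : CharZero O'') (_ : Algebra O' O'') (_ : Module.Finite O' O'') (_ : IsLocalHom (algebraMap O' O'')),
      Function.Injective (algebraMap O' O'') ∧
      ∃ ρ : GaloisRepAdic O'',
        (∀ (ℓ : ℕ) (hℓ : ℓ.Prime) (hℓM : ¬ ℓ ∣ M) (hℓS : ℓ ∉ (↑S : Set ℕ)),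
          ∀ A : ValuationSubring (AlgebraicClosure ℚ), A.LiesOverPrime ℓ →
            ∀ σ : AlgebraicClosure ℚ ≃ₐ[ℚ] AlgebraicClosure ℚ, A.IsFrobeniusAt σ ℓ →
              LinearMap.charpoly (ρ.ρ σ) =
                X ^ 2 - C (algebraMap O' O'' ((iota.comp chig.rangeRestrict) (CuspForm.heckeAlgebra.T hℓ hℓM hℓS))) * X
                  + C ((ℓ : O''))) ∧
        (∀ q : ℕ, q.Prime → q ≠ lam → q ∣ M → ¬ q ^ 2 ∣ M →
          ∀ A : ValuationSubring (AlgebraicClosure ℚ), A.LiesOverPrime q →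
            ∀ σ : AlgebraicClosure ℚ ≃ₐ[ℚ] AlgebraicClosure ℚ, A.IsFrobeniusAt σ q →
              LinearMap.charpoly (ρ.ρ σ) = X ^ 2 - C ((q : O'') + 1) * X + C ((q : O'')) ∨
              LinearMap.charpoly (ρ.ρ σ) = X ^ 2 + C ((q : O'') + 1) * X + C ((q : O''))) := by
  have hp' : lam.Prime := Fact.out
  obtain ⟨AJ, c, θ, t, hker, hrel, hAJT, h⟩ :=
    exists_AJ_traceData (p := lam) (N := M) (S := S) (iota.comp chig.rangeRestrict) hlamO' hlamS
  obtain ⟨-, h1, h2, h3, h4, -, -, -, -, -⟩ := h.spec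
  obtain ⟨ρ, hchar, -⟩ :=
    Fermat.Agent.S30.H90.exists_galoisRepAdic_of_pseudoTrace t h1 h2 h3 h4 h.t_conj h.t_cont
  refine ⟨O', inferInstance, inferInstance, inferInstance, inferInstance, inferInstance,
    inferInstance, Algebra.id O', inferInstance, ?_, Function.injective_id, ρ, ?_, ?_⟩
  · rw [Algebra.algebraMap_self]
    exact isLocalHom_id O'
  · intro ℓ hℓ hℓM hℓS A hA σ hσ
    obtain ⟨e1, e2⟩ := h.t_frob ℓ hℓ hℓM hℓS A hA σ hσ
    rw [hchar σ (ℓ : O') e2, e1, Algebra.algebraMap_self, RingHom.id_apply]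
  · intro q hq hqlam hqM hq2 A hA σ hσ
    obtain ⟨r, hr, a, hχ, hkill⟩ := hKey q hq hqlam hqM hq2 AJ hker hrel hAJT
    have hdet := h.det_frob hlamO' q hq hqlam A hA σ hσ
    have hsq := h.sq_eq_of_kill hker hlamO' q hq hqlam A hA σ hσ r hr a (hkill A hA σ hσ)
    have hlam0 : (lam : O') ≠ 0 := Nat.cast_ne_zero.mpr hp'.ne_zero
    have hsq' : t σ ^ 2 - ((q : O') + 1) ^ 2 = 0 := by
      rcases mul_eq_zero.mp hsq with h' | h'
      · rcases mul_eq_zero.mp h' with h'' | h''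
        · exact absurd (pow_eq_zero_iff (fun h0 : a = 0 => by
            rw [h0, pow_zero] at h''; exact one_ne_zero h'') |>.mp h'') hlam0
        · exact absurd h'' hχ
      · exact h'
    have hfac : (t σ - ((q : O') + 1)) * (t σ + ((q : O') + 1)) = 0 := by
      linear_combination hsq'
    rcases mul_eq_zero.mp hfac with h' | h'
    · left
      rw [hchar σ (q : O') hdet, sub_eq_zero.mp h']
    · right
      have e1 : t σ = -((q : O') + 1) := eq_neg_of_add_eq_zero_left h'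
      rw [hchar σ (q : O') hdet, e1, map_neg, neg_mul, sub_neg_eq_add]

/-- **S35 from the key statement in Galois-span form, in the binder shape of the frozen
statement.** -/
theorem s35_of_keyGal'
    {M : ℕ} [NeZero M] {g : CuspForm (CongruenceSubgroup.Gamma0 M) 2} (_hg : g.IsNewform)
    (lam : ℕ) [Fact lam.Prime]
    (S : Finset ℕ)
    (O' : Type) [CommRing O'] [IsDomain O'] [IsDiscreteValuationRing O']
    [IsAdicComplete (IsLocalRing.maximalIdeal O') O'] [Finite (IsLocalRing.ResidueField O')]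
    [CharZero O'] (hlamO' : (lam : O') ∈ IsLocalRing.maximalIdeal O')
    (chig : CuspForm.heckeAlgebra M 2 (↑S : Set ℕ) →+* ℂ)
    (_hchig : ∀ (ℓ : ℕ) (hℓ : ℓ.Prime) (hℓM : ¬ ℓ ∣ M) (hℓS : ℓ ∉ (↑S : Set ℕ)),
      chig (CuspForm.heckeAlgebra.T hℓ hℓM hℓS) = ModularFormClass.qCoeff g ℓ)
    (iota : chig.range →+* O')
    (hlamS : lam ∈ S) (_hMS : ∀ q : ℕ, q.Prime → q ∣ M → q ∈ S)
    (hKey : ∀ q : ℕ, q.Prime → q ≠ lam → q ∣ M → ¬ q ^ 2 ∣ M →
      KeyStatementGal lam M S (iota.comp chig.rangeRestrict) q) :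
    ∃ (O'' : Type) (_ : CommRing O'') (_ : IsDomain O'') (_ : IsDiscreteValuationRing O'')
      (_ : IsAdicComplete (IsLocalRing.maximalIdeal O'') O'') (_ : Finite (IsLocalRing.ResidueField O''))
      (_ : CharZero O'') (_ : Algebra O' O'') (_ : Module.Finite O' O'') (_ : IsLocalHom (algebraMap O' O'')),
      Function.Injective (algebraMap O' O'') ∧
      ∃ ρ : GaloisRepAdic O'',
        (∀ (ℓ : ℕ) (hℓ : ℓ.Prime) (hℓM : ¬ ℓ ∣ M) (hℓS : ℓ ∉ (↑S : Set ℕ)),
          ∀ A : ValuationSubring (AlgebraicClosure ℚ), A.LiesOverPrime ℓ →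
            ∀ σ : AlgebraicClosure ℚ ≃ₐ[ℚ] AlgebraicClosure ℚ, A.IsFrobeniusAt σ ℓ →
              LinearMap.charpoly (ρ.ρ σ) =
                X ^ 2 - C (algebraMap O' O'' ((iota.comp chig.rangeRestrict) (CuspForm.heckeAlgebra.T hℓ hℓM hℓS))) * X
                  + C ((ℓ : O''))) ∧
        (∀ q : ℕ, q.Prime → q ≠ lam → q ∣ M → ¬ q ^ 2 ∣ M →
          ∀ A : ValuationSubring (AlgebraicClosure ℚ), A.LiesOverPrime q →
            ∀ σ : AlgebraicClosure ℚ ≃ₐ[ℚ] AlgebraicClosure ℚ, A.IsFrobeniusAt σ q →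
              LinearMap.charpoly (ρ.ρ σ) = X ^ 2 - C ((q : O'') + 1) * X + C ((q : O'')) ∨
              LinearMap.charpoly (ρ.ρ σ) = X ^ 2 + C ((q : O'') + 1) * X + C ((q : O''))) :=
  s35_of_keyGal lam S O' hlamO' chig iota hlamS hKey

end Fermat.Agent.S35.H95
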